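import Fermat.Agent.S05.Model

/-!
# The model `Y² = X³ + a₂ X² + a₄ X` of a curve of Frey type
-/

set_option autoImplicit false

namespace Fermat.Agent.S05Lib

open WeierstrassCurve WeierstrassCurve.Affine

variable {L : Type} [Field L] [DecidableEq L]

omit [DecidableEq L] in
lemma dbl_identity (X Z a₂ a₄ : L) (hZ : Z ≠ 0) (h2 : (2 : L) ≠ 0)
    (e : Z ^ 2 = X ^ 3 + a₂ * X ^ 2 + a₄ * X) :
    ((3 * X ^ 2 + 2 * a₂ * X + a₄) / (2 * Z)) ^ 2 - a₂ - 2 * X
      = (X ^ 2 - a₄) ^ 2 / (4 * Z ^ 2) := by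
  have h4 : (4 : L) ≠ 0 := by
    have : (4 : L) = 2 * 2 := by norm_num
    rw [this]; exact mul_ne_zero h2 h2
  rw [div_pow, eq_div_iff (mul_ne_zero h4 (pow_ne_zero 2 hZ))]
  have : (2 * Z) ^ 2 = 4 * Z ^ 2 := by ring
  rw [this, sub_mul, sub_mul, div_mul_cancel₀ _ (mul_ne_zero h4 (pow_ne_zero 2 hZ))]
  linear_combination (-4 * (a₂ + 2 * X)) * e

/-- The coordinates `(4x - r, 8y + 4x)`. -/
def freyCo (W : Affine L) (r : L) : W.Point → Option (L × L)
  | .zero => none
  | .some x y _ => some (4 * x - r, 8 * y + 4 * x)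

/-- The points of the curve `y² + xy = x³ + (B - 1 - A)/4 x² - AB/16 x`, in the coordinates
`(X, Y) = (4x - r, 8y + 4x)`, where `r` is a root of `r (r - A) (r + B)`. -/
def freyModel (W : Affine L) (h2 : (2 : L) ≠ 0) (A B r : L) (h₁ : W.a₁ = 1) (h₃ : W.a₃ = 0)
    (h₆ : W.a₆ = 0) (h₂ : W.a₂ = (B - 1 - A) / 4) (h₄ : W.a₄ = -A * B / 16)
    (hr : r * (r - A) * (r + B) = 0) :
    XYModel L W.Point (3 * r + B - A) (3 * r ^ 2 + 2 * (B - A) * r - A * B) where
  co := freyCo W r
  co_zero := rfl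
  co_inj := by
    have h4 : (4 : L) ≠ 0 := by
      have : (4 : L) = 2 * 2 := by norm_num
      rw [this]; exact mul_ne_zero h2 h2
    have h8 : (8 : L) ≠ 0 := by
      have : (8 : L) = 2 * 4 := by norm_num
      rw [this]; exact mul_ne_zero h2 h4
    rintro (_ | ⟨x₁, y₁, n₁⟩) (_ | ⟨x₂, y₂, n₂⟩) h
    · rfl
    · simp [freyCo] at h
    · simp [freyCo] at h
    · simp only [freyCo, Option.some.injEq, Prod.mk.injEq] at h
      obtain ⟨hx, hy⟩ := h
      have hx' : x₁ = x₂ := by
        have : 4 * x₁ = 4 * x₂ := by linear_combination hx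
        exact mul_left_cancel₀ h4 this
      subst hx'
      have hy' : y₁ = y₂ := by
        have : 8 * y₁ = 8 * y₂ := by linear_combination hy
        exact mul_left_cancel₀ h8 this
      subst hy'
      rfl
  eqn := by
    have h4 : (4 : L) ≠ 0 := by
      have : (4 : L) = 2 * 2 := by norm_num
      rw [this]; exact mul_ne_zero h2 h2
    have h16 : (16 : L) ≠ 0 := by
      have : (16 : L) = 4 * 4 := by norm_num
      rw [this]; exact mul_ne_zero h4 h4
    rintro (_ | ⟨x, y, n⟩) X Y h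
    · simp [freyCo] at h
    · simp only [freyCo, Option.some.injEq, Prod.mk.injEq] at h
      obtain ⟨rfl, rfl⟩ := h
      have e := (W.equation_iff x y).mp n.1
      rw [h₁, h₃, h₆, h₂, h₄] at e
      field_simp at e
      linear_combination e + hr
  co_neg := by
    rintro (_ | ⟨x, y, n⟩) X Y h
    · simp [freyCo] at h
    · simp only [freyCo, Option.some.injEq, Prod.mk.injEq] at h
      obtain ⟨rfl, rfl⟩ := h
      rw [Point.neg_some]
      simp only [freyCo, negY, h₁, h₃, Option.some.injEq, Prod.mk.injEq, true_and]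
      ring
  co_add := by
    have h4 : (4 : L) ≠ 0 := by
      have : (4 : L) = 2 * 2 := by norm_num
      rw [this]; exact mul_ne_zero h2 h2
    rintro (_ | ⟨x₁, y₁, n₁⟩) (_ | ⟨x₂, y₂, n₂⟩) X₁ Y₁ X₂ Y₂ hP hQ hX
    · simp [freyCo] at hP
    · simp [freyCo] at hP
    · simp [freyCo] at hQ
    · simp only [freyCo, Option.some.injEq, Prod.mk.injEq] at hP hQ
      obtain ⟨rfl, rfl⟩ := hP
      obtain ⟨rfl, rfl⟩ := hQ
      have hx : x₁ ≠ x₂ := fun h => hX (by rw [h])
      have hd : x₁ - x₂ ≠ 0 := sub_ne_zero.mpr hx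
      rw [Point.add_of_X_ne hx]
      refine ⟨8 * W.addY x₁ x₂ y₁ (W.slope x₁ x₂ y₁ y₂)
        + 4 * W.addX x₁ x₂ (W.slope x₁ x₂ y₁ y₂), ?_⟩
      simp only [freyCo, Option.some.injEq, Prod.mk.injEq, and_true]
      rw [slope_of_X_ne hx, addX, h₁, h₂]
      have hd' : 4 * x₁ - r - (4 * x₂ - r) ≠ 0 := by
        have : 4 * x₁ - r - (4 * x₂ - r) = 4 * (x₁ - x₂) := by ring
        rw [this]; exact mul_ne_zero h4 hd
      field_simp
      ring
  co_dbl := by
    have h4 : (4 : L) ≠ 0 := by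
      have : (4 : L) = 2 * 2 := by norm_num
      rw [this]; exact mul_ne_zero h2 h2
    have h16 : (16 : L) ≠ 0 := by
      have : (16 : L) = 4 * 4 := by norm_num
      rw [this]; exact mul_ne_zero h4 h4
    rintro (_ | ⟨x, y, n⟩) X Y hP hY
    · simp [freyCo] at hP
    · simp only [freyCo, Option.some.injEq, Prod.mk.injEq] at hP
      obtain ⟨rfl, rfl⟩ := hP
      have hy : y ≠ W.negY x y := by
        intro h
        apply hY
        rw [negY, h₁, h₃] at h
        linear_combination 4 * h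
      have hy' : y - W.negY x y ≠ 0 := sub_ne_zero.mpr hy
      rw [Point.add_self_of_Y_ne hy]
      refine ⟨8 * W.addY x x y (W.slope x x y y) + 4 * W.addX x x (W.slope x x y y), ?_⟩
      simp only [freyCo, Option.some.injEq, Prod.mk.injEq, and_true]
      have e := (W.equation_iff x y).mp n.1
      rw [h₁, h₃, h₆, h₂, h₄] at e
      field_simp at e
      rw [slope_of_Y_ne rfl hy, addX, h₁, h₂, h₄]
      rw [negY, h₁, h₃] at hy' ⊢
      have hy'' : y - (-y - 1 * x - 0) = 2 * y + x := by ring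
      rw [hy''] at hy' ⊢
      have hY' : 8 * y + 4 * x = 4 * (2 * y + x) := by ring
      rw [hY']
      set ℓ := (3 * x ^ 2 + 2 * ((B - 1 - A) / 4) * x + -A * B / 16 - 1 * y) / (2 * y + x) with hℓ
      set X := 4 * x - r with hXdef
      set Z := 4 * (2 * y + x) with hZdef
      have hZ0 : Z ≠ 0 := mul_ne_zero h4 hy'
      have e' : Z ^ 2 = X ^ 3 + (3 * r + B - A) * X ^ 2 + (3 * r ^ 2 + 2 * (B - A) * r - A * B) * X := by
        rw [hZdef, hXdef]
        linear_combination e + hr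
      have s1 : 2 * ℓ + 1
          = (3 * X ^ 2 + 2 * (3 * r + B - A) * X + (3 * r ^ 2 + 2 * (B - A) * r - A * B))
            / (2 * Z) := by
        rw [hℓ, hZdef, hXdef]
        field_simp
        ring
      have s2 : 4 * (ℓ ^ 2 + 1 * ℓ - (B - 1 - A) / 4 - x - x) - r
          = (2 * ℓ + 1) ^ 2 - (3 * r + B - A) - 2 * X := by
        rw [hXdef]
        field_simp
        ring
      rw [s2, s1]
      exact dbl_identity X Z _ _ hZ0 h2 e'

end Fermat.Agent.S05Lib
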