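import Fermat.Agent.S05.OrdConstruct
import Fermat.Prelude.Def_FLTPrelim_Ramification

/-!
# The rational valued valuation attached to a place of `ℚ̄` over a prime `q`
-/

set_option autoImplicit false

namespace Fermat.Agent.S05Lib

open Polynomial

local notation "Qbar" => AlgebraicClosure ℚ

variable (A : ValuationSubring Qbar) {q : ℕ}

section

variable {A}

lemma val_q_lt_one (hA : A.LiesOverPrime q) : A.valuation (q : Qbar) < 1 :=
  A.mem_nonunits_iff.mp hA

lemma val_q_pos (hq : q.Prime) : 0 < A.valuation (q : Qbar) := by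
  rw [zero_lt_iff, Valuation.ne_zero_iff]
  exact_mod_cast hq.ne_zero

lemma val_int_le_one (n : ℤ) : A.valuation (n : Qbar) ≤ 1 :=
  (A.valuation_le_one_iff _).mpr (intCast_mem A n)

lemma val_int_eq_one (hq : q.Prime) (hA : A.LiesOverPrime q) {n : ℤ} (hn : ¬ (q : ℤ) ∣ n) :
    A.valuation (n : Qbar) = 1 := by
  refine le_antisymm (val_int_le_one n) ?_
  by_contra hlt
  rw [not_le] at hlt
  have hcop : IsCoprime n (q : ℤ) := by
    have := (Nat.prime_iff_prime_int.mp hq)
    exact ((Prime.coprime_iff_not_dvd this).mpr hn).symm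
  obtain ⟨a, b, hab⟩ := hcop
  have h1 : ((a : Qbar) * n + b * q) = 1 := by exact_mod_cast congrArg (Int.cast : ℤ → Qbar) hab
  have h2 : A.valuation ((a : Qbar) * n) < 1 := by
    rw [map_mul]
    exact lt_of_le_of_lt (mul_le_of_le_one_left' (val_int_le_one a)) hlt
  have h3 : A.valuation ((b : Qbar) * q) < 1 := by
    rw [map_mul]
    exact lt_of_le_of_lt (mul_le_of_le_one_left' (val_int_le_one b)) (val_q_lt_one hA)
  have := A.valuation.map_add_lt h2 h3
  rw [h1, map_one] at this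
  exact lt_irrefl _ this

lemma val_nat_eq_zpow (hq : q.Prime) (hA : A.LiesOverPrime q) {n : ℕ} (hn : n ≠ 0) :
    ∃ k : ℤ, A.valuation (n : Qbar) = A.valuation (q : Qbar) ^ k := by
  obtain ⟨e, n', hn', rfl⟩ := Nat.exists_eq_pow_mul_and_not_dvd hn q hq.ne_one
  refine ⟨e, ?_⟩
  have h1 : A.valuation ((n' : ℤ) : Qbar) = 1 :=
    val_int_eq_one hq hA (by exact_mod_cast hn')
  push_cast at h1 ⊢
  rw [map_mul, map_pow, h1, mul_one, zpow_natCast]

lemma val_rat_eq_zpow (hq : q.Prime) (hA : A.LiesOverPrime q) {c : ℚ} (hc : c ≠ 0) :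
    ∃ k : ℤ, A.valuation (algebraMap ℚ Qbar c) = A.valuation (q : Qbar) ^ k := by
  have hnum : c.num.natAbs ≠ 0 := by
    simpa using hc
  obtain ⟨k₁, h1⟩ := val_nat_eq_zpow hq hA hnum
  obtain ⟨k₂, h2⟩ := val_nat_eq_zpow hq hA c.den_ne_zero
  refine ⟨k₁ - k₂, ?_⟩
  have hnum' : A.valuation ((c.num : ℤ) : Qbar) = A.valuation ((c.num.natAbs : ℕ) : Qbar) := by
    rcases Int.natAbs_eq c.num with h | h
    · conv_lhs => rw [h]
      simp
    · conv_lhs => rw [h]
      simp
  have hc' : algebraMap ℚ Qbar c = (c.num : Qbar) / (c.den : Qbar) := by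
    conv_lhs => rw [← Rat.num_div_den c]
    simp
  rw [hc', map_div₀, hnum', h1, h2, zpow_sub₀ (val_q_pos hq).ne']

/-- Every value of the valuation is commensurable with the value of `q`. -/
lemma exists_ordRel (hq : q.Prime) (hA : A.LiesOverPrime q) (x : Qbar) (hx : x ≠ 0) :
    ∃ r : ℚ, OrdRel A.valuation (A.valuation (q : Qbar)) x r := by
  set v := A.valuation with hv
  have halg' : Algebra.IsAlgebraic ℚ Qbar := AlgebraicClosure.isAlgebraic ℚ
  have halg : IsAlgebraic ℚ x := halg'.isAlgebraic x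
  obtain ⟨f, hf0, hfx⟩ := halg
  -- the terms of the polynomial relation
  set t : ℕ → Qbar := fun i => algebraMap ℚ Qbar (f.coeff i) * x ^ i with ht
  have hsum : ∑ i ∈ f.support, t i = 0 := by
    rw [← hfx, aeval_def, eval₂_eq_sum, Polynomial.sum]
  have hne : f.support.Nonempty := by
    rwa [Finset.nonempty_iff_ne_empty, Ne, Polynomial.support_eq_empty]
  have htne : ∀ i ∈ f.support, t i ≠ 0 := by
    intro i hi
    refine mul_ne_zero ?_ (pow_ne_zero _ hx)
    rw [Ne, map_eq_zero]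
    exact Polynomial.mem_support_iff.mp hi
  obtain ⟨i₀, hi₀, hmax⟩ := Finset.exists_max_image f.support (fun i => v (t i)) hne
  -- the maximum is attained twice
  have htwice : ∃ j ∈ f.support, j ≠ i₀ ∧ v (t j) = v (t i₀) := by
    by_contra hcon
    push Not at hcon
    have hlt : ∀ j ∈ f.support.erase i₀, v (t j) < v (t i₀) := by
      intro j hj
      rw [Finset.mem_erase] at hj
      exact lt_of_le_of_ne (hmax j hj.2) (hcon j hj.2 hj.1)
    have h0 : v (t i₀) ≠ 0 := (Valuation.ne_zero_iff v).mpr (htne i₀ hi₀)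
    have h1 := v.map_sum_lt h0 hlt
    have h2 : ∑ j ∈ f.support.erase i₀, t j = - t i₀ := by
      rw [← Finset.add_sum_erase _ _ hi₀] at hsum
      exact (neg_eq_of_add_eq_zero_right hsum).symm
    rw [h2, Valuation.map_neg] at h1
    exact lt_irrefl _ h1
  obtain ⟨j, hj, hji, hvj⟩ := htwice
  -- a general consequence
  have key : ∀ a b : ℕ, a ∈ f.support → b ∈ f.support → a < b → v (t a) = v (t b) →
      ∃ r : ℚ, OrdRel v (v (q : Qbar)) x r := by
    intro a b ha hb hab hvab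
    have hca : f.coeff a ≠ 0 := Polynomial.mem_support_iff.mp ha
    have hcb : f.coeff b ≠ 0 := Polynomial.mem_support_iff.mp hb
    obtain ⟨k₁, h1⟩ := val_rat_eq_zpow hq hA hca
    obtain ⟨k₂, h2⟩ := val_rat_eq_zpow hq hA hcb
    have hvx : v x ≠ 0 := (Valuation.ne_zero_iff v).mpr hx
    have hg : v (q : Qbar) ≠ 0 := (val_q_pos hq).ne'
    refine ⟨_, b - a, Nat.sub_pos_of_lt hab, k₁ - k₂, ?_, rfl⟩
    simp only [ht, map_mul, map_pow] at hvab
    rw [← hv] at h1 h2
    rw [h1, h2] at hvab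
    have hb' : b = (b - a) + a := (Nat.sub_add_cancel hab.le).symm
    rw [hb', pow_add, ← mul_assoc] at hvab
    have := mul_right_cancel₀ (pow_ne_zero a hvx) hvab
    rw [zpow_sub₀ hg, this]
    field_simp
  rcases lt_or_gt_of_ne hji with h | h
  · exact key j i₀ hj hi₀ h hvj
  · exact key i₀ j hi₀ hj h hvj.symm

end

/-- The rational valued valuation attached to a place over `q`. -/
noncomputable def qbarOrd (hq : q.Prime) (hA : A.LiesOverPrime q) : OrdData Qbar :=
  ordDataOf (val_q_pos hq) (val_q_lt_one hA) (exists_ordRel hq hA)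

variable {A}
variable (hq : q.Prime) (hA : A.LiesOverPrime q)

lemma qbarOrd_q : (qbarOrd A hq hA).EQ (q : Qbar) 1 :=
  ordDataOf_EQ _ _ _ (by exact_mod_cast hq.ne_zero) ⟨1, one_pos, 1, by simp, by simp⟩

lemma qbarOrd_int {n : ℤ} (hn : ¬ (q : ℤ) ∣ n) : (qbarOrd A hq hA).EQ (n : Qbar) 0 := by
  refine ordDataOf_EQ _ _ _ ?_ ⟨1, one_pos, 0, ?_, by simp⟩
  · intro h0
    have : n = 0 := by exact_mod_cast h0
    exact hn (this ▸ dvd_zero _)
  · rw [val_int_eq_one hq hA hn]; simp

lemma qbarOrd_GE_zero {x : Qbar} (hx : x ∈ A) : (qbarOrd A hq hA).GE x 0 :=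
  ordDataOf_GE_zero _ _ _ ((A.valuation_le_one_iff x).mpr hx)

lemma qbarOrd_mem {x : Qbar} (hx : (qbarOrd A hq hA).GE x 0) : x ∈ A :=
  (A.valuation_le_one_iff x).mp (ordDataOf_le_one _ _ _ hx)

lemma qbarOrd_GT_zero {x : Qbar} (hx : A.valuation x < 1) : (qbarOrd A hq hA).GT x 0 :=
  ordDataOf_GT_zero _ _ _ hx

/-- Inertia moves integral elements by elements of the maximal ideal. -/
lemma qbarOrd_inertia {σ : Qbar ≃ₐ[ℚ] Qbar} (hσ : σ ∈ A.inertiaSubgroupIn ℚ) (x : Qbar)
    (hx : (qbarOrd A hq hA).GE x 0) : (qbarOrd A hq hA).GT (σ x - x) 0 := by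
  apply qbarOrd_GT_zero
  have hxA := qbarOrd_mem hq hA hx
  obtain ⟨s, hs, rfl⟩ := hσ
  have hs' : MulSemiringAction.toRingAut (A.decompositionSubgroup ℚ)
      (IsLocalRing.ResidueField A) s = 1 := hs
  have h1 : s • IsLocalRing.residue A ⟨x, hxA⟩ = IsLocalRing.residue A ⟨x, hxA⟩ := by
    have := congrArg (fun f => f (IsLocalRing.residue A ⟨x, hxA⟩)) hs'
    simpa using this
  rw [← IsLocalRing.ResidueField.residue_smul, ← sub_eq_zero, ← map_sub,
    IsLocalRing.residue_eq_zero_iff, A.valuation_lt_one_iff] at h1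
  exact h1

end Fermat.Agent.S05Lib
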