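import Fermat.Agent.S05.Abstract
import Fermat.Agent.S05.QbarOrd
import Fermat.Agent.S05.FreyModel

/-!
# The Frey curve is unramified outside `2p`
-/

set_option autoImplicit false

namespace Fermat.Agent.S05Lib

open WeierstrassCurve WeierstrassCurve.Affine OrdData

local notation "Qbar" => AlgebraicClosure ℚ

section Ints

variable {A : ValuationSubring Qbar} {q : ℕ} (hq : q.Prime) (hA : A.LiesOverPrime q)

lemma qbarOrd_int_exists {n : ℤ} (hn : n ≠ 0) :
    ∃ w : ℕ, (qbarOrd A hq hA).EQ (n : Qbar) w ∧ ((q : ℤ) ∣ n → 0 < w) := by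
  have hfin : FiniteMultiplicity (q : ℤ) n := by
    rw [Int.finiteMultiplicity_iff]
    exact ⟨by simpa using hq.ne_one, hn⟩
  obtain ⟨c, hc, hqc⟩ := hfin.exists_eq_pow_mul_and_not_dvd
  refine ⟨multiplicity (q : ℤ) n, ?_, ?_⟩
  · have h1 := ((qbarOrd_q hq hA).pow (multiplicity (q : ℤ) n)).mul (qbarOrd_int hq hA hqc)
    have h2 : (n : Qbar) = (q : Qbar) ^ multiplicity (q : ℤ) n * (c : Qbar) := by
      conv_lhs => rw [hc]
      push_cast; ring
    rw [h2]
    exact h1.of_eq (by ring)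
  · intro hdvd
    by_contra h0
    have h0' : multiplicity (q : ℤ) n = 0 := by omega
    rw [h0', pow_zero, one_mul] at hc
    exact hqc (hc ▸ hdvd)

end Ints

section Main

variable [DecidableEq Qbar]

/-- The Galois action on coordinates. -/
lemma freyCo_map (E : WeierstrassCurve ℚ) (σ : Qbar ≃ₐ[ℚ] Qbar) (r : Qbar) (hr : σ r = r)
    {P : (E⁄Qbar).Point} {X Y : Qbar} (h : freyCo (E⁄Qbar) r P = some (X, Y)) :
    freyCo (E⁄Qbar) r (Point.map (W' := E) σ.toAlgHom P) = some (σ X, σ Y) := by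
  rcases P with _ | ⟨x, y, n⟩
  · simp [freyCo] at h
  · simp only [freyCo, Option.some.injEq, Prod.mk.injEq] at h
    obtain ⟨rfl, rfl⟩ := h
    rw [Point.map_some]
    simp only [freyCo, Option.some.injEq, Prod.mk.injEq]
    have h4 : σ 4 = 4 := map_ofNat σ 4
    have h8 : σ 8 = 8 := map_ofNat σ 8
    constructor
    · simp [hr, h4]
    · simp [h4, h8]

theorem frey_unramified (P : FreyPackage) {q : ℕ} (hq : q.Prime) (hq2 : q ≠ 2) (hqp : q ≠ P.p)
    (A : ValuationSubring Qbar) (hA : A.LiesOverPrime q) (σ : Qbar ≃ₐ[ℚ] Qbar)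
    (hσ : σ ∈ A.inertiaSubgroupIn ℚ) (x : (P.freyCurve⁄Qbar).Point) (hx : P.p • x = 0) :
    Point.map (W' := P.freyCurve) σ.toAlgHom x = x := by
  set O := qbarOrd A hq hA with hO
  set a : Qbar := (P.a : Qbar) ^ P.p with ha
  set b : Qbar := (P.b : Qbar) ^ P.p with hb
  set c : Qbar := (P.c : Qbar) ^ P.p with hc
  have habc : a + b = c := by
    rw [ha, hb, hc]; exact_mod_cast congrArg (Int.cast : ℤ → Qbar) P.hFLT
  have h2 : O.EQ (2 : Qbar) 0 := by
    have : ¬ (q : ℤ) ∣ (2 : ℤ) := by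
      intro h
      have h' : q ∣ 2 := by exact_mod_cast h
      exact hq2 ((Nat.prime_dvd_prime_iff_eq hq Nat.prime_two).mp h')
    simpa using qbarOrd_int hq hA this
  have hp : O.EQ (P.p : Qbar) 0 := by
    have : ¬ (q : ℤ) ∣ (P.p : ℤ) := by
      intro h
      have h' : q ∣ P.p := by exact_mod_cast h
      exact hqp ((Nat.prime_dvd_prime_iff_eq hq P.pp).mp h')
    simpa using qbarOrd_int hq hA this
  have h20 : (2 : Qbar) ≠ 0 := h2.1
  have h₁ : (P.freyCurve⁄Qbar).a₁ = 1 := by simp [FreyPackage.freyCurve]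
  have h₃ : (P.freyCurve⁄Qbar).a₃ = 0 := by simp [FreyPackage.freyCurve]
  have h₆ : (P.freyCurve⁄Qbar).a₆ = 0 := by simp [FreyPackage.freyCurve]
  have h₂ : (P.freyCurve⁄Qbar).a₂ = (b - 1 - a) / 4 := by simp [FreyPackage.freyCurve, ha, hb]
  have h₄ : (P.freyCurve⁄Qbar).a₄ = -a * b / 16 := by simp [FreyPackage.freyCurve, ha, hb]
  have hσ' := qbarOrd_inertia hq hA hσ
  have hσa : σ a = a := by simp [ha]
  have hσq : σ (q : Qbar) = q := by simp
  obtain ⟨wa, hwa, hwa'⟩ := qbarOrd_int_exists hq hA P.ha0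
  obtain ⟨wb, hwb, hwb'⟩ := qbarOrd_int_exists hq hA P.hb0
  obtain ⟨wc, hwc, hwc'⟩ := qbarOrd_int_exists hq hA P.hc0
  have hEa : O.EQ a (P.p * wa) := hwa.pow P.p
  have hEb : O.EQ b (P.p * wb) := hwb.pow P.p
  have hEc : O.EQ c (P.p * wc) := hwc.pow P.p
  have hppos : (0 : ℚ) < P.p := by exact_mod_cast P.hppos
  have hq1 : ¬ (q : ℤ) ∣ 1 := by
    intro h
    have h' : q ∣ 1 := by exact_mod_cast h
    exact hq.one_lt.ne' (Nat.dvd_one.mp h')
  have hab : (q : ℤ) ∣ P.a → (q : ℤ) ∣ P.b → False :=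
    fun h1 h2 => hq1 (P.hgcdab ▸ dvd_gcd h1 h2)
  have hac : (q : ℤ) ∣ P.a → (q : ℤ) ∣ P.c → False :=
    fun h1 h2 => hq1 (P.hgcdac ▸ dvd_gcd h1 h2)
  have hunit : ∀ n : ℤ, ¬ (q : ℤ) ∣ n → O.EQ ((n : Qbar) ^ P.p) 0 :=
    fun n hn => ((qbarOrd_int hq hA hn).pow P.p).of_eq (by ring)
  -- the multiplicative case
  have mult_case : ∀ (r : Qbar) (_ : σ r = r) (hr : r * (r - a) * (r + b) = 0) (w : ℕ)
      (_ : 0 < w) (_ : O.EQ (3 * r + b - a) 0)
      (_ : O.EQ (3 * r ^ 2 + 2 * (b - a) * r - a * b) (P.p * w)),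
      Point.map (W' := P.freyCurve) σ.toAlgHom x = x := by
    intro r hσr hr w hw ha₂ ha₄
    have hwpos : (0 : ℚ) < w := by exact_mod_cast hw
    exact XYModel.fixed_of_mult (M := freyModel (P.freyCurve⁄Qbar) h20 a b r h₁ h₃ h₆ h₂ h₄ hr) (O := O) h2
      (σ : Qbar →+* Qbar) (Point.map (W' := P.freyCurve) σ.toAlgHom)
      (fun h => freyCo_map P.freyCurve σ r hσr h) hσ' ha₂ ha₄ (mul_pos hppos hwpos)
      (qbarOrd_q hq hA) hσq hp P.hp_odd (w := (w : ℤ)) (by push_cast; ring) hx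
  by_cases hqa : (q : ℤ) ∣ P.a
  · have hb0 : O.EQ b 0 := hunit _ (fun h => hab hqa h)
    have hwpos : (0 : ℚ) < wa := by exact_mod_cast hwa' hqa
    refine mult_case 0 (map_zero σ) (by ring) wa (hwa' hqa) ?_ ?_
    · have : 3 * 0 + b - a = b - a := by ring
      rw [this]
      exact hb0.sub_gt (hEa.gt (mul_pos hppos hwpos))
    · have : 3 * (0 : Qbar) ^ 2 + 2 * (b - a) * 0 - a * b = -(a * b) := by ring
      rw [this]
      exact ((hEa.mul hb0).of_eq (by ring)).neg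
  by_cases hqb : (q : ℤ) ∣ P.b
  · have ha0 : O.EQ a 0 := hunit _ hqa
    have hwpos : (0 : ℚ) < wb := by exact_mod_cast hwb' hqb
    refine mult_case 0 (map_zero σ) (by ring) wb (hwb' hqb) ?_ ?_
    · have : 3 * 0 + b - a = -a + b := by ring
      rw [this]
      exact ha0.neg.add_gt (hEb.gt (mul_pos hppos hwpos))
    · have : 3 * (0 : Qbar) ^ 2 + 2 * (b - a) * 0 - a * b = -(a * b) := by ring
      rw [this]
      exact ((ha0.mul hEb).of_eq (by ring)).neg
  by_cases hqc : (q : ℤ) ∣ P.c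
  · have ha0 : O.EQ a 0 := hunit _ hqa
    have hwpos : (0 : ℚ) < wc := by exact_mod_cast hwc' hqc
    refine mult_case a hσa (by ring) wc (hwc' hqc) ?_ ?_
    · have : 3 * a + b - a = a + c := by rw [← habc]; ring
      rw [this]
      exact ha0.add_gt (hEc.gt (mul_pos hppos hwpos))
    · have : 3 * a ^ 2 + 2 * (b - a) * a - a * b = a * c := by rw [← habc]; ring
      rw [this]
      exact (ha0.mul hEc).of_eq (by ring)
  · have ha0 : O.EQ a 0 := hunit _ hqa
    have hb0 : O.EQ b 0 := hunit _ hqb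
    have hc0 : O.EQ c 0 := hunit _ hqc
    refine XYModel.fixed_of_good
      (M := freyModel (P.freyCurve⁄Qbar) h20 a b 0 h₁ h₃ h₆ h₂ h₄ (by ring)) (O := O) h2
      (σ : Qbar →+* Qbar) (Point.map (W' := P.freyCurve) σ.toAlgHom)
      (fun h => freyCo_map P.freyCurve σ 0 (map_zero σ) h) hσ' ?_ ?_ ?_ hp hx
    · have : 3 * 0 + b - a = b - a := by ring
      rw [this]
      exact hb0.ge'.sub ha0.ge'
    · have : 3 * (0 : Qbar) ^ 2 + 2 * (b - a) * 0 - a * b = -(a * b) := by ring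
      rw [this]
      exact ((ha0.mul hb0).of_eq (by ring)).neg
    · have : (3 * 0 + b - a) ^ 2 - 4 * (3 * (0 : Qbar) ^ 2 + 2 * (b - a) * 0 - a * b) = c ^ 2 := by
        rw [← habc]; ring
      rw [this]
      exact hc0.sq.of_eq (by ring)

end Main

end Fermat.Agent.S05Lib
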