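import Fermat.Agent.S05.Mult

/-!
# The abstract form of the theorem: inertia fixes the `p`-torsion
-/

set_option autoImplicit false

namespace Fermat.Agent.S05Lib

namespace XYModel

open OrdData

variable {L : Type} [Field L] {G : Type} [AddCommGroup G] {a₂ a₄ : L} {M : XYModel L G a₂ a₄}
  {O : OrdData L}

section

variable (h2 : O.EQ (2 : L) 0)
  (σ : L →+* L) (τ : G →+ G)
  (hτ : ∀ {P : G} {X Y : L}, M.co P = some (X, Y) → M.co (τ P) = some (σ X, σ Y))
  (hσ : ∀ x : L, O.GE x 0 → O.GT (σ x - x) 0)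
include h2 hτ hσ

/-- **Good reduction.** -/
theorem fixed_of_good (ha₂ : O.GE a₂ 0) (ha₄ : O.EQ a₄ 0) (hdisc : O.EQ (a₂ ^ 2 - 4 * a₄) 0)
    {p : ℕ} (hp : O.EQ (p : L) 0) {P : G} (hpP : p • P = 0) : τ P = P := by
  rcases hc : M.co P with _ | ⟨X, Y⟩
  · rw [M.co_eq_none.mp hc, map_zero]
  rcases GE_or_lt O X 0 with hX | ⟨hX0, hlt⟩
  · refine fixed_of_nonsingular h2 ha₂ ha₄.ge' σ τ hτ hσ hc hX ?_ hp hpP
    have e := M.eqn hc
    have hY : O.GE Y 0 := by
      apply GE.of_sq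
      rw [e]
      have t1 : O.GE (X ^ 3) 0 := (hX.pow 3).mono (by norm_num)
      have t2 : O.GE (a₂ * X ^ 2) 0 := (ha₂.mul hX.sq).mono (by norm_num)
      have t3 : O.GE (a₄ * X) 0 := (ha₄.ge'.mul hX).mono (by norm_num)
      exact ((t1.add t2).add t3).mono (by norm_num)
    rcases hY.eq_or_gt with hYE | hYgt
    · exact Or.inl hYE
    right
    have hf'ge : O.GE (3 * X ^ 2 + 2 * a₂ * X + a₄) 0 :=
      ((((three_ge O).mul hX.sq).mono (by norm_num)).add
        (((h2.ge'.mul ha₂).mul hX).mono (by norm_num))).add ha₄.ge'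
    rcases hf'ge.eq_or_gt with hE | hgt
    · exact hE
    exfalso
    -- `X` is a unit
    have hXE : O.EQ X 0 := by
      rcases hX.eq_or_gt with h | h
      · exact h
      · exfalso
        have : O.EQ (3 * X ^ 2 + 2 * a₂ * X + a₄) 0 := by
          apply EQ.gt_add _ ha₄
          exact (((three_ge O).mul_gt h.sq).mono (by norm_num)).add
            (((h2.ge'.mul ha₂).mul_gt h).mono (by norm_num))
        exact this.not_gt hgt le_rfl
    have hg : O.GT (X ^ 2 + a₂ * X + a₄) 0 := by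
      have : X ^ 2 + a₂ * X + a₄ = Y ^ 2 / X := by
        rw [e]; have := hXE.1; field_simp
      rw [this]
      exact (hYgt.sq.div hXE).mono (by norm_num)
    have hl : O.GT (2 * X + a₂) 0 := by
      have : 2 * X + a₂ = ((3 * X ^ 2 + 2 * a₂ * X + a₄) - (X ^ 2 + a₂ * X + a₄)) / X := by
        have := hXE.1; field_simp; ring
      rw [this]
      exact ((hgt.sub hg).div hXE).mono (by norm_num)
    have : a₂ ^ 2 - 4 * a₄ = (2 * X + a₂) ^ 2 - 4 * (X ^ 2 + a₂ * X + a₄) := by ring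
    rw [this] at hdisc
    exact hdisc.not_gt ((hl.sq.mono (by norm_num)).sub
      (((four_eq h2).ge'.mul_gt hg).mono (by norm_num))) le_rfl
  · exact absurd hpP (nsmul_ne_zero_of_close h2 ha₂ ha₄.ge' hc (eq_self hX0) hlt hp)

variable {h : ℚ} (ha₂ : O.EQ a₂ 0) (ha₄ : O.EQ a₄ h) (hh : 0 < h)
include ha₂ ha₄ hh

/-- Multiplicative reduction, the points with nonsingular reduction. -/
lemma fixed_of_unit {p : ℕ} (hp : O.EQ (p : L) 0) {P : G} (hpP : p • P = 0) {X Y : L}
    (hc : M.co P = some (X, Y)) {o : ℚ} (hX : O.EQ X o) (ho : o ≤ 0) : τ P = P := by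
  rcases ho.lt_or_eq with hlt | heq
  · exact absurd hpP (nsmul_ne_zero_of_close h2 ha₂.ge' (ha₄.ge hh.le) hc hX hlt hp)
  subst heq
  refine fixed_of_nonsingular h2 ha₂.ge' (ha₄.ge hh.le) σ τ hτ hσ hc hX.ge' ?_ hp hpP
  have e := M.eqn hc
  have ha₄gt : O.GT a₄ 0 := ha₄.gt hh
  have hY : O.GE Y 0 := by
    apply GE.of_sq
    rw [e]
    have t1 : O.GE (X ^ 3) 0 := (hX.ge'.pow 3).mono (by norm_num)
    have t2 : O.GE (a₂ * X ^ 2) 0 := (ha₂.ge'.mul hX.ge'.sq).mono (by norm_num)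
    have t3 : O.GE (a₄ * X) 0 := (ha₄gt.ge.mul hX.ge').mono (by norm_num)
    exact ((t1.add t2).add t3).mono (by norm_num)
  rcases hY.eq_or_gt with hYE | hYgt
  · exact Or.inl hYE
  right
  have hg : O.GT (X ^ 2 + a₂ * X + a₄) 0 := by
    have : X ^ 2 + a₂ * X + a₄ = Y ^ 2 / X := by
      rw [e]; have := hX.1; field_simp
    rw [this]
    exact (hYgt.sq.div hX).mono (by norm_num)
  have hl : O.GT (X + a₂) 0 := by
    have : X + a₂ = ((X ^ 2 + a₂ * X + a₄) - a₄) / X := by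
      have := hX.1; field_simp; ring
    rw [this]
    exact ((hg.sub ha₄gt).div hX).mono (by norm_num)
  have : 3 * X ^ 2 + 2 * a₂ * X + a₄ = X * (-a₂ + 3 * (X + a₂)) + a₄ := by ring
  rw [this]
  exact ((hX.mul (ha₂.neg.add_gt (((three_ge O).mul_gt hl).mono (by norm_num)))).of_eq
    (by norm_num)).add_gt ha₄gt

/-- Multiplicative reduction, a point near the node whose `X`-coordinate has integral valuation. -/
lemma close_of_node {ϖ : L} (hϖ : O.EQ ϖ 1) (hσϖ : σ ϖ = ϖ) {P : G} {X Y : L}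
    (hc : M.co P = some (X, Y)) {j : ℤ} (hX : O.EQ X j) (h0 : (0 : ℚ) < j) (h3 : (j : ℚ) < h) :
    M.Close O (τ P - P) := by
  have e := M.eqn hc
  have hτP := hτ hc
  have hX0 := hX.1
  have hϖj : O.EQ (ϖ ^ j) j := (hϖ.zpow j).of_eq (by ring)
  have hϖj0 := hϖj.1
  -- `X = ϖ ^ j * u`
  have hu : O.EQ (X / ϖ ^ j) 0 := (hX.div hϖj).of_eq (by ring)
  have hdu := hσ _ hu.ge'
  have hσX : σ X - X = ϖ ^ j * (σ (X / ϖ ^ j) - X / ϖ ^ j) := by
    rw [map_div₀, map_zpow₀, hσϖ]; field_simp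
  have dX : O.GT (σ X - X) j := by
    rw [hσX]; exact (hϖj.ge'.mul_gt hdu).mono (by linarith)
  -- the slope `s = Y / X`
  have hs2 : O.EQ ((Y / X) ^ 2) (2 * 0) := by
    have : (Y / X) ^ 2 = a₂ + X + a₄ / X := by
      rw [div_pow, e]; field_simp; ring
    rw [this]
    exact ((ha₂.add_gt (hX.gt h0)).add_gt ((ha₄.div hX).gt (by linarith))).of_eq (by ring)
  have hs : O.EQ (Y / X) 0 := hs2.of_sq
  have hds := hσ _ hs.ge'
  have hσs : O.GE (σ (Y / X)) 0 := by
    have : σ (Y / X) = Y / X + (σ (Y / X) - Y / X) := by ring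
    rw [this]; exact hs.ge'.add hds.ge
  have hσY : σ Y = σ (Y / X) * σ X := by
    rw [← map_mul]; congr 1; field_simp
  have hsum : O.EQ (σ (Y / X) + Y / X) 0 := by
    have : σ (Y / X) + Y / X = 2 * (Y / X) + (σ (Y / X) - Y / X) := by ring
    rw [this]
    exact ((h2.mul hs).of_eq (by norm_num)).add_gt hds
  by_cases hxx : σ X = X
  · rw [hxx] at hτP
    rcases M.eq_or_eq_neg hτP hc with hh' | hh'
    · exact Or.inl (by rw [hh', sub_self])
    · exfalso
      have hY₁ : σ Y = -Y := by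
        have := hτP.symm.trans (hh' ▸ M.co_neg hc)
        simpa using this
      have : σ (Y / X) + Y / X = 0 := by
        rw [map_div₀, hxx, hY₁]; field_simp; ring
      exact hsum.1 this
  · obtain ⟨Y₃, h3'⟩ := M.co_sub hτP hc hxx
    have hd0 : σ X - X ≠ 0 := sub_ne_zero.mpr hxx
    have hdE := eq_self (O := O) hd0
    have hdgt : (j : ℚ) < O.ord (σ X - X) := hdE.lt_of_gt dX
    have hnum : O.EQ (σ Y + Y) j := by
      have : σ Y + Y = (σ (Y / X) + Y / X) * X + σ (Y / X) * (σ X - X) := by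
        rw [hσY]; field_simp; ring
      rw [this]
      exact ((hsum.mul hX).of_eq (by ring)).add_gt ((hσs.mul_gt dX).mono (by linarith))
    have hlE := hnum.div hdE
    have hσXge : O.GE (σ X) 0 := by
      have : σ X = X + (σ X - X) := by ring
      rw [this]; exact (hX.ge h0.le).add (dX.ge.mono h0.le)
    refine Or.inr ⟨_, Y₃, _, h3', ?_, (by linarith : 2 * ((j : ℚ) - O.ord (σ X - X)) < 0)⟩
    exact ((hlE.sq.sub_gt (ha₂.gt (by linarith))).sub_gt (hσXge.gt (by linarith))).sub_gt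
      (hX.gt (by linarith))

/-- **Multiplicative reduction**, with `p ∣ ord a₄`. -/
theorem fixed_of_mult {ϖ : L} (hϖ : O.EQ ϖ 1) (hσϖ : σ ϖ = ϖ) {p : ℕ} (hp : O.EQ (p : L) 0)
    (hodd : Odd p) {w : ℤ} (hw : h = p * w) {P : G} (hpP : p • P = 0) : τ P = P := by
  have hp0 : (p : ℚ) ≠ 0 := by
    intro h0
    rw [hw, h0, zero_mul] at hh
    exact lt_irrefl _ hh
  rcases hc : M.co P with _ | ⟨X, Y⟩
  · rw [M.co_eq_none.mp hc, map_zero]
  rcases GE_or_lt O X h with hge | ⟨hX0, hlt⟩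
  · -- the middle component: pass to `2 P`
    have hred : τ (P + P) = P + P → τ P = P := by
      intro h'
      obtain ⟨k, hk⟩ := hodd
      have hP : P = (k + 1) • (P + P) := by
        have : (k + 1) • (P + P) = p • P + P := by
          rw [hk, smul_add, ← add_smul, add_smul (2 * k) 1 P, one_smul,
            show k + 1 + (k + 1) = 2 * k + 1 + 1 by ring, add_smul (2 * k + 1) 1 P, one_smul,
            add_smul (2 * k) 1 P, one_smul]
        rw [this, hpP, zero_add]
      rw [hP, map_nsmul, h']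
    apply hred
    by_cases hY0 : Y = 0
    · subst hY0
      rw [M.add_self_eq_zero hc, map_zero]
    obtain ⟨Y₃, h3⟩ := M.co_dbl hc hY0
    have e := M.eqn hc
    have hX0 : X ≠ 0 := by
      intro h0; apply hY0
      rw [h0] at e
      have : Y ^ 2 = 0 := by rw [e]; ring
      exact pow_eq_zero_iff (two_ne_zero) |>.mp this
    have hYE := eq_self (O := O) hY0
    have hY2 : O.GE (Y ^ 2) (2 * h) := by
      have : Y ^ 2 = X * (X ^ 2 + a₂ * X + a₄) := by rw [e]; ring
      rw [this]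
      have t : O.GE (X ^ 2 + a₂ * X + a₄) h :=
        ((hge.sq.mono (by linarith)).add ((ha₂.ge'.mul hge).mono (by linarith))).add ha₄.ge'
      exact (hge.mul t).mono (by linarith)
    have hYord : 2 * h ≤ 2 * O.ord Y := hYE.sq.le_of_ge hY2
    have hE : O.EQ (X ^ 2 - a₄) h := EQ.gt_sub (hge.sq.gt (by linarith)) ha₄
    have hT := hE.sq.div ((four_eq h2).mul hYE.sq)
    have hp2 : p • (P + P) = 0 := by rw [smul_add, hpP, add_zero]
    exact fixed_of_unit h2 σ τ hτ hσ ha₂ ha₄ hh hp hp2 h3 hT (by linarith)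
  · have hXE := eq_self (O := O) hX0
    rcases le_or_gt (O.ord X) 0 with hle | hpos
    · exact fixed_of_unit h2 σ τ hτ hσ ha₂ ha₄ hh hp hpP hc hXE hle
    · obtain ⟨k, hk⟩ := ord_of_torsion h2 ha₂ ha₄ hc hXE hpos hlt hpP
      have hj : O.ord X = ((2 * w * k : ℤ) : ℚ) := by
        rw [hw] at hk
        have : (p : ℚ) * O.ord X = p * (2 * w * k) := by rw [hk]; ring
        have := mul_left_cancel₀ hp0 this
        rw [this]; push_cast; ring
      have hXj : O.EQ X ((2 * w * k : ℤ) : ℚ) := ⟨hX0, hj⟩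
      have hcl := close_of_node h2 σ τ hτ hσ ha₂ ha₄ hh hϖ hσϖ hc hXj (hj ▸ hpos) (hj ▸ hlt)
      have : p • (τ P - P) = 0 := by
        rw [smul_sub, ← map_nsmul, hpP, map_zero, sub_zero]
      exact sub_eq_zero.mp (hcl.eq_zero h2 ha₂.ge' (ha₄.ge hh.le) hp this)

end

end XYModel

end Fermat.Agent.S05Lib
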