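import Fermat.Agent.S05.Kernel

/-!
# Inertia acts trivially on torsion points with nonsingular reduction
-/

set_option autoImplicit false

namespace Fermat.Agent.S05Lib

namespace XYModel

open OrdData

variable {L : Type} [Field L] {G : Type} [AddCommGroup G] {a₂ a₄ : L} (M : XYModel L G a₂ a₄)

/-- The points in the kernel of reduction. -/
def Close (O : OrdData L) (D : G) : Prop :=
  D = 0 ∨ ∃ (X Y : L) (c : ℚ), M.co D = some (X, Y) ∧ O.EQ X c ∧ c < 0

variable {M} {O : OrdData L}

lemma Close.neg {D : G} (h : M.Close O D) : M.Close O (-D) := by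
  rcases h with h | ⟨X, Y, c, h, hX, hc⟩
  · exact Or.inl (by rw [h, neg_zero])
  · exact Or.inr ⟨X, -Y, c, M.co_neg h, hX, hc⟩

lemma Close.eq_zero (h2 : O.EQ (2 : L) 0) (ha₂ : O.GE a₂ 0) (ha₄ : O.GE a₄ 0) {D : G}
    (h : M.Close O D) {p : ℕ} (hp : O.EQ (p : L) 0) (hpD : p • D = 0) : D = 0 := by
  rcases h with h | ⟨X, Y, c, h, hX, hc⟩
  · exact h
  · exact absurd hpD (nsmul_ne_zero_of_close h2 ha₂ ha₄ h hX hc hp)

section

variable (h2 : O.EQ (2 : L) 0) (ha₂ : O.GE a₂ 0) (ha₄ : O.GE a₄ 0)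
  (σ : L →+* L) (τ : G →+ G)
  (hτ : ∀ {P : G} {X Y : L}, M.co P = some (X, Y) → M.co (τ P) = some (σ X, σ Y))
  (hσ : ∀ x : L, O.GE x 0 → O.GT (σ x - x) 0)
include h2 ha₂ ha₄ hτ hσ

/-- If `P` is integral with nonsingular reduction then `τ P - P` is in the kernel of reduction. -/
lemma close_of_nonsingular {P : G} {X Y : L} (hP : M.co P = some (X, Y)) (hX : O.GE X 0)
    (hns : O.EQ Y 0 ∨ O.EQ (3 * X ^ 2 + 2 * a₂ * X + a₄) 0) : M.Close O (τ P - P) := by
  have e := M.eqn hP
  have hτP := hτ hP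
  have e₁ := M.eqn hτP
  have hY : O.GE Y 0 := by
    apply GE.of_sq
    rw [e]
    have t1 : O.GE (X ^ 3) 0 := (hX.pow 3).mono (by norm_num)
    have t2 : O.GE (a₂ * X ^ 2) 0 := (ha₂.mul hX.sq).mono (by norm_num)
    have t3 : O.GE (a₄ * X) 0 := (ha₄.mul hX).mono (by norm_num)
    exact ((t1.add t2).add t3).mono (by norm_num)
  have dX := hσ X hX
  have dY := hσ Y hY
  have hX₁ : O.GE (σ X) 0 := by
    have : σ X = X + (σ X - X) := by ring
    rw [this]; exact hX.add dX.ge
  by_cases hxx : σ X = X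
  · rw [hxx] at hτP
    rcases M.eq_or_eq_neg hτP hP with h | h
    · exact Or.inl (by rw [h, sub_self])
    · have hY₁ : σ Y = -Y := by
        have := hτP.symm.trans (h ▸ M.co_neg hP)
        simpa using this
      have hD : τ P - P = -(P + P) := by rw [h]; abel
      rw [hD]
      apply Close.neg
      by_cases hY0 : Y = 0
      · subst hY0
        exact Or.inl (M.add_self_eq_zero hP)
      · obtain ⟨Y₃, h3⟩ := M.co_dbl hP hY0
        have hYgt : O.GT Y 0 := by
          rw [hY₁] at dY
          have h20 : (2 : L) ≠ 0 := h2.1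
          have : Y = (-Y - Y) / (-2) := by field_simp; ring
          rw [this]
          exact (dY.div h2.neg).mono (by norm_num)
        have hf' : O.EQ (3 * X ^ 2 + 2 * a₂ * X + a₄) 0 := by
          rcases hns with h | h
          · exact absurd hYgt (fun hg => h.not_gt hg le_rfl)
          · exact h
        have hnum : O.EQ ((X ^ 2 - a₄) ^ 2) 0 := by
          have : (X ^ 2 - a₄) ^ 2
              = (3 * X ^ 2 + 2 * a₂ * X + a₄) ^ 2 - (4 * (2 * X + a₂)) * Y ^ 2 := by
            linear_combination (4 * (2 * X + a₂)) * e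
          rw [this]
          have t : O.GE (4 * (2 * X + a₂)) 0 :=
            ((four_eq h2).ge'.mul (((h2.ge'.mul hX).mono (by norm_num)).add ha₂)).mono
              (by norm_num)
          exact (hf'.sq.of_eq (by norm_num)).sub_gt ((t.mul_gt hYgt.sq).mono (by norm_num))
        have hYE := eq_self (O := O) hY0
        have hYpos : 0 < O.ord Y := hYE.lt_of_gt hYgt
        refine Or.inr ⟨_, Y₃, _, h3, hnum.div ((four_eq h2).mul hYE.sq), by linarith⟩
  · obtain ⟨Y₃, h3⟩ := M.co_sub hτP hP hxx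
    have hd0 : σ X - X ≠ 0 := sub_ne_zero.mpr hxx
    have hdE := eq_self (O := O) hd0
    have hdpos : 0 < O.ord (σ X - X) := hdE.lt_of_gt dX
    -- the slope is not integral
    have hslope : ∃ l : ℚ, l < 0 ∧ O.EQ ((σ Y + Y) / (σ X - X)) l := by
      rcases hY.eq_or_gt with hYE | hYgt
      · have : O.EQ (σ Y + Y) 0 := by
          have h' : σ Y + Y = 2 * Y + (σ Y - Y) := by ring
          rw [h']
          exact ((h2.mul hYE).of_eq (by norm_num)).add_gt dY
        exact ⟨_, by linarith, this.div hdE⟩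
      · have hf' : O.EQ (3 * X ^ 2 + 2 * a₂ * X + a₄) 0 := by
          rcases hns with h | h
          · exact absurd hYgt (fun hg => h.not_gt hg le_rfl)
          · exact h
        have hg : O.EQ (3 * X ^ 2 + 2 * a₂ * X + a₄ + (σ X - X) * (σ X + 2 * X + a₂)) 0 := by
          apply hf'.add_gt
          have t : O.GE (σ X + 2 * X + a₂) 0 :=
            (hX₁.add ((h2.ge'.mul hX).mono (by norm_num))).add ha₂
          exact (dX.mul_ge t).mono (by norm_num)
        have hrel : (σ Y + Y) * (σ Y - Y)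
            = (σ X - X) * (3 * X ^ 2 + 2 * a₂ * X + a₄ + (σ X - X) * (σ X + 2 * X + a₂)) := by
          linear_combination e₁ - e
        have hdY0 : σ Y - Y ≠ 0 := by
          intro h0
          rw [h0, mul_zero] at hrel
          exact (mul_ne_zero hd0 hg.1) hrel.symm
        have hdYE := eq_self (O := O) hdY0
        have hdYpos : 0 < O.ord (σ Y - Y) := hdYE.lt_of_gt dY
        have : (σ Y + Y) / (σ X - X)
            = (3 * X ^ 2 + 2 * a₂ * X + a₄ + (σ X - X) * (σ X + 2 * X + a₂)) / (σ Y - Y) := by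
          field_simp
          linear_combination hrel
        rw [this]
        exact ⟨_, by linarith, hg.div hdYE⟩
    obtain ⟨l, hl, hlE⟩ := hslope
    refine Or.inr ⟨_, Y₃, 2 * l, h3, ?_, by linarith⟩
    exact ((hlE.sq.sub_gt (ha₂.gt (by linarith))).sub_gt (hX₁.gt (by linarith))).sub_gt
      (hX.gt (by linarith))

/-- Torsion points with nonsingular reduction are fixed by inertia. -/
lemma fixed_of_nonsingular {P : G} {X Y : L} (hP : M.co P = some (X, Y)) (hX : O.GE X 0)
    (hns : O.EQ Y 0 ∨ O.EQ (3 * X ^ 2 + 2 * a₂ * X + a₄) 0)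
    {p : ℕ} (hp : O.EQ (p : L) 0) (hpP : p • P = 0) : τ P = P := by
  have hc := close_of_nonsingular h2 ha₂ ha₄ σ τ hτ hσ hP hX hns
  have : p • (τ P - P) = 0 := by
    rw [smul_sub, ← map_nsmul, hpP, map_zero, sub_zero]
  exact sub_eq_zero.mp (hc.eq_zero h2 ha₂ ha₄ hp this)

end

end XYModel

end Fermat.Agent.S05Lib
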