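import Fermat.Agent.S05.Model

/-!
# The kernel of reduction has no torsion prime to the residue characteristic
-/

set_option autoImplicit false

namespace Fermat.Agent.S05Lib

namespace OrdData

variable {L : Type} [Field L] {O : OrdData L}

lemma natCast_ge (O : OrdData L) (n : ℕ) : O.GE (n : L) 0 := by
  induction n with
  | zero => simpa using (GE.zero (O := O) (c := 0))
  | succ n ih => push_cast; exact ih.add EQ.one.ge'

lemma three_ge (O : OrdData L) : O.GE (3 : L) 0 := by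
  simpa using O.natCast_ge 3

lemma two_ge (O : OrdData L) : O.GE (2 : L) 0 := by
  simpa using O.natCast_ge 2

lemma four_eq (h2 : O.EQ (2 : L) 0) : O.EQ (4 : L) 0 := by
  have := h2.mul h2
  norm_num at this
  exact this

end OrdData

namespace XYModel

open OrdData

variable {L : Type} [Field L] {G : Type} [AddCommGroup G] {a₂ a₄ : L} (M : XYModel L G a₂ a₄)

/-- The function `1 / X`, vanishing at the origin. -/
def xi (R : G) : L :=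
  match M.co R with
  | none => 0
  | some (X, _) => X⁻¹

lemma xi_zero : M.xi 0 = 0 := by
  unfold xi; rw [M.co_zero]

lemma xi_of_co {R : G} {X Y : L} (h : M.co R = some (X, Y)) : M.xi R = X⁻¹ := by
  unfold xi; rw [h]

lemma xi_neg (R : G) : M.xi (-R) = M.xi R := by
  rcases hc : M.co R with _ | ⟨X, Y⟩
  · rw [M.co_eq_none.mp hc, neg_zero]
  · rw [M.xi_of_co hc, M.xi_of_co (M.co_neg hc)]

/-- The points which are `ρ`-close to the origin. -/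
def InE1 (O : OrdData L) (ρ : ℚ) (R : G) : Prop :=
  R = 0 ∨ ∃ (X Y : L) (c : ℚ), M.co R = some (X, Y) ∧ O.EQ X c ∧ c ≤ -ρ

variable {M} {O : OrdData L} {ρ : ℚ}

lemma InE1.neg {R : G} (h : M.InE1 O ρ R) : M.InE1 O ρ (-R) := by
  rcases h with h | ⟨X, Y, c, h, hX, hc⟩
  · exact Or.inl (by rw [h, neg_zero])
  · exact Or.inr ⟨X, -Y, c, M.co_neg h, hX, hc⟩

lemma InE1.xi_ge {R : G} (h : M.InE1 O ρ R) : O.GE (M.xi R) ρ := by
  rcases h with h | ⟨X, Y, c, h, hX, hc⟩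
  · rw [h, M.xi_zero]; exact GE.zero
  · rw [M.xi_of_co h]; exact hX.inv.ge (by linarith)

section

variable (h2 : O.EQ (2 : L) 0) (ha₂ : O.GE a₂ 0) (ha₄ : O.GE a₄ 0) (hρ : 0 < ρ)
include h2 ha₂ ha₄ hρ

/-- Doubling a point close to the origin. -/
lemma dbl_close {D : G} {X Y : L} (hD : M.co D = some (X, Y)) (hX : O.EQ X (-ρ)) :
    M.InE1 O ρ (D + D) ∧ O.GT (M.xi (D + D) - 4 * M.xi D) ρ := by
  have e := M.eqn hD
  have hX0 := hX.1
  have hY2 : O.EQ (Y ^ 2) (-3 * ρ) := by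
    rw [e]
    have t1 : O.EQ (X ^ 3) (-3 * ρ) := (hX.pow 3).of_eq (by push_cast; ring)
    have t2 : O.GT (a₂ * X ^ 2) (-3 * ρ) := ((ha₂.mul hX.sq.ge')).gt (by linarith)
    have t3 : O.GT (a₄ * X) (-3 * ρ) := ((ha₄.mul hX.ge')).gt (by linarith)
    exact (t1.add_gt t2).add_gt t3
  have hY0 : Y ≠ 0 := fun h0 => hY2.1 (by rw [h0]; simp)
  obtain ⟨Y₃, h3⟩ := M.co_dbl hD hY0
  have hE : O.EQ (X ^ 2 - a₄) (-2 * ρ) :=
    (hX.sq.of_eq (by ring)).sub_gt (ha₄.gt (by linarith))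
  have h4 := four_eq h2
  have hden : O.EQ (4 * Y ^ 2) (-3 * ρ) := (h4.mul hY2).of_eq (by ring)
  have hT : O.EQ ((X ^ 2 - a₄) ^ 2 / (4 * Y ^ 2)) (-ρ) := (hE.sq.div hden).of_eq (by ring)
  refine ⟨Or.inr ⟨_, Y₃, -ρ, h3, hT, le_rfl⟩, ?_⟩
  rw [M.xi_of_co h3, M.xi_of_co hD]
  have hE0 := hE.1
  have key : ((X ^ 2 - a₄) ^ 2 / (4 * Y ^ 2))⁻¹ - 4 * X⁻¹
      = 4 * (a₂ * X ^ 3 + 3 * a₄ * X ^ 2 - a₄ ^ 2) / ((X ^ 2 - a₄) ^ 2 * X) := by
    field_simp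
    linear_combination 4 * X * e
  rw [key]
  have n1 : O.GE (a₂ * X ^ 3) (-3 * ρ) :=
    (ha₂.mul (hX.pow 3).ge').mono (by push_cast; linarith)
  have n2 : O.GE (3 * a₄ * X ^ 2) (-3 * ρ) :=
    (((three_ge O).mul ha₄).mul hX.sq.ge').mono (by linarith)
  have n3 : O.GE (a₄ ^ 2) (-3 * ρ) := ha₄.sq.mono (by linarith)
  have hnum : O.GE (4 * (a₂ * X ^ 3 + 3 * a₄ * X ^ 2 - a₄ ^ 2)) (-3 * ρ) :=
    (h4.ge'.mul ((n1.add n2).sub n3)).mono (by linarith)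
  have hd : O.EQ ((X ^ 2 - a₄) ^ 2 * X) (-5 * ρ) := (hE.sq.mul hX).of_eq (by ring)
  exact (hnum.div hd).gt (by linarith)

/-- The parallelogram congruence for the function `1 / X` near the origin. -/
lemma parallelogram {D Q : G} {X Y : L} (hD : M.co D = some (X, Y)) (hX : O.EQ X (-ρ))
    (hQ : M.InE1 O ρ Q) :
    M.InE1 O ρ (Q + D) ∧ M.InE1 O ρ (Q - D) ∧
      O.GT (M.xi (Q + D) + M.xi (Q - D) - 2 * M.xi Q - 2 * M.xi D) ρ := by
  have hDE : M.InE1 O ρ D := Or.inr ⟨X, Y, -ρ, hD, hX, le_rfl⟩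
  rcases hQ with hQ | ⟨x₁, y₁, c₁, hQ, hx₁, hc₁⟩
  · subst hQ
    refine ⟨by rwa [zero_add], by rw [zero_sub]; exact hDE.neg, ?_⟩
    rw [zero_add, zero_sub, M.xi_neg, M.xi_zero]
    have : M.xi D + M.xi D - 2 * 0 - 2 * M.xi D = 0 := by ring
    rw [this]; exact GT.zero
  by_cases hxx : x₁ = X
  · subst hxx
    obtain ⟨hd1, hd2⟩ := dbl_close h2 ha₂ ha₄ hρ hD hX
    rcases M.eq_or_eq_neg hQ hD with h | h
    · subst h
      refine ⟨hd1, by rw [sub_self]; exact Or.inl rfl, ?_⟩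
      rw [sub_self, M.xi_zero]
      have : M.xi (Q + Q) + 0 - 2 * M.xi Q - 2 * M.xi Q = M.xi (Q + Q) - 4 * M.xi Q := by ring
      rw [this]; exact hd2
    · subst h
      have e1 : -D + D = 0 := neg_add_cancel D
      have e2 : -D - D = -(D + D) := by abel
      refine ⟨by rw [e1]; exact Or.inl rfl, by rw [e2]; exact hd1.neg, ?_⟩
      rw [e1, e2, M.xi_neg, M.xi_neg, M.xi_zero]
      have : 0 + M.xi (D + D) - 2 * M.xi D - 2 * M.xi D = M.xi (D + D) - 4 * M.xi D := by ring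
      rw [this]; exact hd2
  · obtain ⟨T₁, T₂, Z₁, Z₂, h1, h2', hS, hP⟩ := M.co_add_sub hQ hD hxx
    have hs : O.EQ (x₁ * X) (c₁ - ρ) := (hx₁.mul hX).of_eq (by ring)
    have hE : O.EQ (x₁ * X - a₄) (c₁ - ρ) := hs.sub_gt (ha₄.gt (by linarith))
    have hd0 : x₁ - X ≠ 0 := sub_ne_zero.mpr hxx
    have hdge : O.GE (x₁ - X) c₁ := hx₁.ge'.sub (hX.ge hc₁)
    have hsum : O.GE (x₁ + X) c₁ := hx₁.ge'.add (hX.ge hc₁)
    have hx₁0 := hx₁.1
    have hX0 := hX.1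
    have hE0 := hE.1
    have hP0 : T₁ * T₂ ≠ 0 := by
      rw [hP]; exact div_ne_zero (pow_ne_zero 2 hE0) (pow_ne_zero 2 hd0)
    have hT₁ : T₁ ≠ 0 := left_ne_zero_of_mul hP0
    have hT₂ : T₂ ≠ 0 := right_ne_zero_of_mul hP0
    -- the sum of the inverses
    have hsumxi : T₁⁻¹ + T₂⁻¹ = (T₁ + T₂) / (T₁ * T₂) := by field_simp; ring
    have key : T₁⁻¹ + T₂⁻¹ - 2 * x₁⁻¹ - 2 * X⁻¹
        = 2 * ((x₁ + X) * (3 * a₄ * (x₁ * X) - a₄ ^ 2) + 2 * a₂ * (x₁ * X) ^ 2)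
          / ((x₁ * X - a₄) ^ 2 * (x₁ * X)) := by
      rw [hsumxi, hS, hP]
      field_simp
      ring
    have hprodxi : T₁⁻¹ * T₂⁻¹ = (x₁ - X) ^ 2 / (x₁ * X - a₄) ^ 2 := by
      rw [← mul_inv, hP, inv_div]
    have hgt : O.GT (T₁⁻¹ + T₂⁻¹ - 2 * x₁⁻¹ - 2 * X⁻¹) ρ := by
      rw [key]
      have n1 : O.GE (3 * a₄ * (x₁ * X) - a₄ ^ 2) (c₁ - ρ) :=
        ((((three_ge O).mul ha₄).mul hs.ge').mono (by linarith)).sub (ha₄.sq.mono (by linarith))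
      have n2 : O.GE ((x₁ + X) * (3 * a₄ * (x₁ * X) - a₄ ^ 2)) (2 * (c₁ - ρ)) :=
        (hsum.mul n1).mono (by linarith)
      have n3 : O.GE (2 * a₂ * (x₁ * X) ^ 2) (2 * (c₁ - ρ)) :=
        ((h2.ge'.mul ha₂).mul hs.sq.ge').mono (by linarith)
      have hnum : O.GE (2 * ((x₁ + X) * (3 * a₄ * (x₁ * X) - a₄ ^ 2) + 2 * a₂ * (x₁ * X) ^ 2))
          (2 * (c₁ - ρ)) := (h2.ge'.mul (n2.add n3)).mono (by linarith)
      have hden : O.EQ ((x₁ * X - a₄) ^ 2 * (x₁ * X)) (3 * (c₁ - ρ)) :=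
        (hE.sq.mul hs).of_eq (by ring)
      exact (hnum.div hden).gt (by linarith)
    have hxi1 : O.GE (x₁⁻¹) ρ := hx₁.inv.ge (by linarith)
    have hxi2 : O.GE (X⁻¹) ρ := hX.inv.ge (by linarith)
    have hsge : O.GE (T₁⁻¹ + T₂⁻¹) ρ := by
      have : T₁⁻¹ + T₂⁻¹ = (T₁⁻¹ + T₂⁻¹ - 2 * x₁⁻¹ - 2 * X⁻¹) + (2 * x₁⁻¹ + 2 * X⁻¹) := by ring
      rw [this]
      exact hgt.ge.add (((h2.ge'.mul hxi1).mono (by linarith)).add
        ((h2.ge'.mul hxi2).mono (by linarith)))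
    have hpge : O.GE (T₁⁻¹ * T₂⁻¹) (2 * ρ) := by
      rw [hprodxi]
      exact (hdge.sq.div hE.sq).mono (by linarith)
    obtain ⟨g1, g2⟩ := quad_ge rfl rfl hsge hpge
    have c1 : M.InE1 O ρ (Q + D) := by
      refine Or.inr ⟨T₁, Z₁, O.ord T₁, h1, eq_self hT₁, ?_⟩
      have := (eq_self (O := O) hT₁).inv.le_of_ge g1
      linarith
    have c2 : M.InE1 O ρ (Q - D) := by
      refine Or.inr ⟨T₂, Z₂, O.ord T₂, h2', eq_self hT₂, ?_⟩
      have := (eq_self (O := O) hT₂).inv.le_of_ge g2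
      linarith
    refine ⟨c1, c2, ?_⟩
    rw [M.xi_of_co h1, M.xi_of_co h2', M.xi_of_co hQ, M.xi_of_co hD]
    exact hgt

/-- Multiples of a point close to the origin: `1 / X (n D) ≡ n² / X (D)`. -/
lemma nsmul_close {D : G} {X Y : L} (hD : M.co D = some (X, Y)) (hX : O.EQ X (-ρ)) (n : ℕ) :
    (M.InE1 O ρ (n • D) ∧ O.GT (M.xi (n • D) - (n : L) ^ 2 * X⁻¹) ρ) ∧
    (M.InE1 O ρ ((n + 1) • D) ∧ O.GT (M.xi ((n + 1) • D) - ((n + 1 : ℕ) : L) ^ 2 * X⁻¹) ρ) := by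
  induction n with
  | zero =>
    refine ⟨⟨Or.inl (zero_smul _ _), ?_⟩, ⟨?_, ?_⟩⟩
    · rw [zero_smul, M.xi_zero]; simpa using (GT.zero (O := O) (c := ρ))
    · rw [zero_add, one_smul]; exact Or.inr ⟨X, Y, -ρ, hD, hX, le_rfl⟩
    · rw [zero_add, one_smul, M.xi_of_co hD]; simpa using (GT.zero (O := O) (c := ρ))
  | succ n ih =>
    obtain ⟨⟨i0, g0⟩, ⟨i1, g1⟩⟩ := ih
    refine ⟨⟨i1, g1⟩, ?_⟩
    obtain ⟨p1, -, p3⟩ := parallelogram h2 ha₂ ha₄ hρ hD hX i1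
    have e1 : (n + 1) • D + D = (n + 1 + 1) • D := (succ_nsmul D (n + 1)).symm
    have e2 : (n + 1) • D - D = n • D := by rw [add_smul, one_smul, add_sub_cancel_right]
    rw [e1] at p1
    rw [e1, e2, M.xi_of_co hD] at p3
    refine ⟨p1, ?_⟩
    have : M.xi ((n + 1 + 1) • D) - ((n + 1 + 1 : ℕ) : L) ^ 2 * X⁻¹
        = (M.xi ((n + 1 + 1) • D) + M.xi (n • D) - 2 * M.xi ((n + 1) • D) - 2 * X⁻¹)
          - (M.xi (n • D) - (n : L) ^ 2 * X⁻¹)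
          + 2 * (M.xi ((n + 1) • D) - ((n + 1 : ℕ) : L) ^ 2 * X⁻¹) := by
      push_cast; ring
    rw [this]
    exact (p3.sub g0).add ((h2.ge'.mul_gt g1).mono (by linarith))

omit hρ in
/-- **The kernel of reduction has no `p`-torsion** when `p` is a unit. -/
theorem nsmul_ne_zero_of_close {D : G} {X Y : L} {c : ℚ} (hD : M.co D = some (X, Y))
    (hX : O.EQ X c) (hc : c < 0) {p : ℕ} (hp : O.EQ (p : L) 0) : p • D ≠ 0 := by
  intro h0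
  have hX' : O.EQ X (-(-c)) := hX.of_eq (by ring)
  obtain ⟨⟨-, g⟩, -⟩ := nsmul_close h2 ha₂ ha₄ (ρ := -c) (by linarith) hD hX' p
  rw [h0, M.xi_zero, zero_sub] at g
  have : O.EQ (-((p : L) ^ 2 * X⁻¹)) (-c) := ((hp.sq.mul hX.inv).of_eq (by ring)).neg
  exact this.not_gt g le_rfl

end

end XYModel

end Fermat.Agent.S05Lib
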