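import Fermat.Agent.S05.Ord

/-!
# An abstract model for the points of `Y² = X³ + a₂ X² + a₄ X`
-/

set_option autoImplicit false

namespace Fermat.Agent.S05Lib

/-- An abstract model of the group of points of `Y² = X³ + a₂X² + a₄X`: only the formulas for the
`X`-coordinate of a sum are recorded. -/
structure XYModel (L : Type) [Field L] (G : Type) [AddCommGroup G] (a₂ a₄ : L) : Type where
  co : G → Option (L × L)
  co_zero : co 0 = none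
  co_inj : ∀ {P Q : G}, co P = co Q → P = Q
  eqn : ∀ {P : G} {X Y : L}, co P = some (X, Y) → Y ^ 2 = X ^ 3 + a₂ * X ^ 2 + a₄ * X
  co_neg : ∀ {P : G} {X Y : L}, co P = some (X, Y) → co (-P) = some (X, -Y)
  co_add : ∀ {P Q : G} {X₁ Y₁ X₂ Y₂ : L}, co P = some (X₁, Y₁) → co Q = some (X₂, Y₂) → X₁ ≠ X₂ →
    ∃ Y₃ : L, co (P + Q) = some (((Y₁ - Y₂) / (X₁ - X₂)) ^ 2 - a₂ - X₁ - X₂, Y₃)
  co_dbl : ∀ {P : G} {X Y : L}, co P = some (X, Y) → Y ≠ 0 →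
    ∃ Y₃ : L, co (P + P) = some ((X ^ 2 - a₄) ^ 2 / (4 * Y ^ 2), Y₃)

namespace XYModel

variable {L : Type} [Field L] {G : Type} [AddCommGroup G] {a₂ a₄ : L} (M : XYModel L G a₂ a₄)

lemma co_eq_none {P : G} : M.co P = none ↔ P = 0 :=
  ⟨fun h => M.co_inj (h.trans M.co_zero.symm), fun h => h ▸ M.co_zero⟩

lemma ne_zero_of_co {P : G} {X Y : L} (h : M.co P = some (X, Y)) : P ≠ 0 := by
  intro h0
  rw [h0, M.co_zero] at h
  exact absurd h (by simp)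

lemma exists_co_of_ne_zero {P : G} (h : P ≠ 0) : ∃ X Y : L, M.co P = some (X, Y) := by
  rcases hc : M.co P with _ | ⟨X, Y⟩
  · exact absurd (M.co_eq_none.mp hc) h
  · exact ⟨X, Y, rfl⟩

/-- Points with the same `X`-coordinate agree up to sign. -/
lemma eq_or_eq_neg {P Q : G} {X Y₁ Y₂ : L} (hP : M.co P = some (X, Y₁))
    (hQ : M.co Q = some (X, Y₂)) : P = Q ∨ P = -Q := by
  have h1 := M.eqn hP
  have h2 := M.eqn hQ
  have h : (Y₁ - Y₂) * (Y₁ + Y₂) = 0 := by linear_combination h1 - h2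
  rcases mul_eq_zero.mp h with h | h
  · left
    apply M.co_inj
    rw [hP, hQ, sub_eq_zero.mp h]
  · right
    apply M.co_inj
    rw [hP, M.co_neg hQ, eq_neg_of_add_eq_zero_left h]

lemma add_self_eq_zero {P : G} {X : L} (hP : M.co P = some (X, 0)) : P + P = 0 := by
  have : P = -P := by
    apply M.co_inj
    rw [M.co_neg hP, hP, neg_zero]
  calc P + P = P + -P := by rw [← this]
    _ = 0 := add_neg_cancel P

/-- The `X`-coordinate of a difference. -/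
lemma co_sub {P Q : G} {X₁ Y₁ X₂ Y₂ : L} (hP : M.co P = some (X₁, Y₁))
    (hQ : M.co Q = some (X₂, Y₂)) (hX : X₁ ≠ X₂) :
    ∃ Y₃ : L, M.co (P - Q) = some (((Y₁ + Y₂) / (X₁ - X₂)) ^ 2 - a₂ - X₁ - X₂, Y₃) := by
  obtain ⟨Y₃, h⟩ := M.co_add hP (M.co_neg hQ) hX
  exact ⟨Y₃, by rw [sub_eq_add_neg, h, sub_neg_eq_add]⟩

/-- The sum and the product of the `X`-coordinates of `P + Q` and `P - Q`. -/
lemma co_add_sub {P Q : G} {X₁ Y₁ X₂ Y₂ : L} (hP : M.co P = some (X₁, Y₁))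
    (hQ : M.co Q = some (X₂, Y₂)) (hX : X₁ ≠ X₂) :
    ∃ T₁ T₂ Z₁ Z₂ : L, M.co (P + Q) = some (T₁, Z₁) ∧ M.co (P - Q) = some (T₂, Z₂) ∧
      T₁ + T₂ = 2 * ((X₁ + X₂) * (X₁ * X₂ + a₄) + 2 * a₂ * (X₁ * X₂)) / (X₁ - X₂) ^ 2 ∧
      T₁ * T₂ = (X₁ * X₂ - a₄) ^ 2 / (X₁ - X₂) ^ 2 := by
  obtain ⟨Z₁, h1⟩ := M.co_add hP hQ hX
  obtain ⟨Z₂, h2⟩ := M.co_sub hP hQ hX
  have e1 := M.eqn hP
  have e2 := M.eqn hQ
  have hd : X₁ - X₂ ≠ 0 := sub_ne_zero.mpr hX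
  refine ⟨_, _, Z₁, Z₂, h1, h2, ?_, ?_⟩
  · field_simp
    linear_combination 2 * e1 + 2 * e2
  · field_simp
    linear_combination
      ((Y₁ ^ 2 - 2 * Y₂ ^ 2 + (X₁ ^ 3 + a₂ * X₁ ^ 2 + a₄ * X₁))
        - 2 * (a₂ + X₁ + X₂) * (X₁ - X₂) ^ 2) * e1
      + ((Y₂ ^ 2 + (X₂ ^ 3 + a₂ * X₂ ^ 2 + a₄ * X₂)) - 2 * (X₁ ^ 3 + a₂ * X₁ ^ 2 + a₄ * X₁)
        - 2 * (a₂ + X₁ + X₂) * (X₁ - X₂) ^ 2) * e2

end XYModel

end Fermat.Agent.S05Lib
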