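import Fermat.Agent.S05.Tent

/-!
# Multiplicative reduction: torsion points near the node
-/

set_option autoImplicit false

namespace Fermat.Agent.S05Lib

/-- `v` is congruent to `± γ` modulo `2h`. -/
def Lev (h v γ : ℚ) : Prop := ∃ k : ℤ, v = γ + 2 * h * k ∨ v = -γ + 2 * h * k

lemma Lev.trans' {h v w γ₁ γ₂ : ℚ} (h1 : Lev h v γ₁) (h2 : Lev h v γ₂) (h3 : Lev h w γ₁) :
    Lev h w γ₂ := by
  obtain ⟨k₁, h1⟩ := h1
  obtain ⟨k₂, h2⟩ := h2
  obtain ⟨k₃, h3⟩ := h3
  rcases h1 with h1 | h1 <;> rcases h2 with h2 | h2 <;> rcases h3 with h3 | h3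
  · exact ⟨k₃ + (k₂ - k₁), Or.inl (by push_cast; linarith)⟩
  · exact ⟨k₃ - (k₂ - k₁), Or.inr (by push_cast; linarith)⟩
  · exact ⟨k₃ + (k₂ - k₁), Or.inr (by push_cast; linarith)⟩
  · exact ⟨k₃ - (k₂ - k₁), Or.inl (by push_cast; linarith)⟩
  · exact ⟨k₃ - (k₂ - k₁), Or.inr (by push_cast; linarith)⟩
  · exact ⟨k₃ + (k₂ - k₁), Or.inl (by push_cast; linarith)⟩
  · exact ⟨k₃ - (k₂ - k₁), Or.inl (by push_cast; linarith)⟩
  · exact ⟨k₃ + (k₂ - k₁), Or.inr (by push_cast; linarith)⟩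

lemma Lev.min_add {h v γ m : ℚ} (h1 : v = γ + m ∨ v = 2 * h - (γ + m)) : Lev h v (γ + m) := by
  rcases h1 with h1 | h1
  · exact ⟨0, Or.inl (by push_cast; linarith)⟩
  · exact ⟨1, Or.inr (by push_cast; linarith)⟩

/-- The combinatorial step. -/
lemma Lev.step {h μ γ m A B : ℚ} (hμ : Lev h μ γ)
    (hA : A = min (μ + m) (2 * h - μ - m)) (hB : B = |μ - m|) :
    (Lev h A (γ + m) ∧ Lev h B (γ - m)) ∨ (Lev h A (γ - m) ∧ Lev h B (γ + m)) := by
  obtain ⟨k, hk⟩ := hμ
  have hA' : A = μ + m ∨ A = 2 * h - μ - m := by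
    rcases min_choice (μ + m) (2 * h - μ - m) with h' | h' <;> rw [h'] at hA
    · exact Or.inl hA
    · exact Or.inr hA
  have hB' : B = μ - m ∨ B = -(μ - m) := by
    rcases abs_choice (μ - m) with h' | h' <;> rw [h'] at hB
    · exact Or.inl hB
    · exact Or.inr hB
  rcases hk with hk | hk
  · left
    constructor
    · rcases hA' with h' | h'
      · exact ⟨k, Or.inl (by linarith)⟩
      · exact ⟨1 - k, Or.inr (by push_cast; linarith)⟩
    · rcases hB' with h' | h'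
      · exact ⟨k, Or.inl (by linarith)⟩
      · exact ⟨-k, Or.inr (by push_cast; linarith)⟩
  · right
    constructor
    · rcases hA' with h' | h'
      · exact ⟨k, Or.inr (by linarith)⟩
      · exact ⟨1 - k, Or.inl (by push_cast; linarith)⟩
    · rcases hB' with h' | h'
      · exact ⟨k, Or.inr (by linarith)⟩
      · exact ⟨-k, Or.inl (by push_cast; linarith)⟩

namespace XYModel

open OrdData

variable {L : Type} [Field L] {G : Type} [AddCommGroup G] {a₂ a₄ : L} (M : XYModel L G a₂ a₄)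

/-- The component function. -/
noncomputable def mu (O : OrdData L) (h : ℚ) (R : G) : ℚ :=
  match M.co R with
  | none => 0
  | some (X, _) => O.clamp h X

variable (O : OrdData L) (h : ℚ)

lemma mu_zero : M.mu O h 0 = 0 := by
  unfold mu; rw [M.co_zero]

variable {O h}

lemma mu_of_co {R : G} {X Y : L} (hR : M.co R = some (X, Y)) : M.mu O h R = O.clamp h X := by
  unfold mu; rw [hR]

lemma mu_neg (R : G) : M.mu O h (-R) = M.mu O h R := by
  rcases hc : M.co R with _ | ⟨X, Y⟩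
  · rw [M.co_eq_none.mp hc, neg_zero]
  · rw [M.mu_of_co hc, M.mu_of_co (M.co_neg hc)]

variable {M}

section

variable (h2 : O.EQ (2 : L) 0) (ha₂ : O.EQ a₂ 0) (ha₄ : O.EQ a₄ h)
include h2 ha₂ ha₄

/-- The values of the component function at `Q + P` and `Q - P`. -/
lemma mu_add_sub {P : G} {X Y : L} {m : ℚ} (hP : M.co P = some (X, Y)) (hX : O.EQ X m)
    (h0 : 0 < m) (h3 : m < h) (Q : G) :
    (M.mu O h (Q + P) = min (M.mu O h Q + m) (2 * h - M.mu O h Q - m) ∧
      M.mu O h (Q - P) = |M.mu O h Q - m|) ∨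
    (M.mu O h (Q - P) = min (M.mu O h Q + m) (2 * h - M.mu O h Q - m) ∧
      M.mu O h (Q + P) = |M.mu O h Q - m|) := by
  have hμP : M.mu O h P = m := by
    rw [M.mu_of_co hP]; exact clamp_of_mem hX h0.le h3.le
  rcases hQ : M.co Q with _ | ⟨x₁, y₁⟩
  · have hQ0 := M.co_eq_none.mp hQ
    subst hQ0
    left
    rw [zero_add, zero_sub, M.mu_neg, hμP, M.mu_zero, zero_add, zero_sub, abs_neg,
      abs_of_pos h0, min_eq_left (by linarith)]
    exact ⟨rfl, rfl⟩
  by_cases hxx : x₁ = X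
  · subst hxx
    obtain ⟨hY0, hd⟩ := dbl_node h2 ha₂ ha₄ hX h0 h3 (M.eqn hP)
    obtain ⟨Y₃, hd3⟩ := M.co_dbl hP hY0
    have hμ2 : M.mu O h (P + P) = min (m + m) (2 * h - m - m) := by
      rw [M.mu_of_co hd3, hd]
      congr 1 <;> ring
    rcases M.eq_or_eq_neg hQ hP with hh | hh
    · subst hh
      left
      rw [hμP, sub_self, sub_self, M.mu_zero, abs_zero]
      exact ⟨hμ2, rfl⟩
    · subst hh
      right
      have e1 : -P + P = 0 := neg_add_cancel P
      have e2 : -P - P = -(P + P) := by abel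
      rw [e1, e2, M.mu_neg, M.mu_neg, hμP, sub_self, M.mu_zero, abs_zero]
      exact ⟨hμ2, rfl⟩
  · obtain ⟨T₁, T₂, Z₁, Z₂, c1, c2, hS, hPr⟩ := M.co_add_sub hQ hP hxx
    rw [M.mu_of_co c1, M.mu_of_co c2, M.mu_of_co hQ]
    rcases GE_or_lt O x₁ h with hge | ⟨hx0, hlt⟩
    · obtain ⟨r1, r2⟩ := roots_mid h2 ha₂ ha₄ hge hX h0 h3 hS hPr
      left
      rw [clamp_of_ge hge (by linarith), r1, r2, min_eq_right (by linarith),
        abs_of_pos (by linarith)]
      exact ⟨by ring, rfl⟩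
    · have hx₁ := eq_self (O := O) hx0
      rcases le_or_gt (O.ord x₁) 0 with hle | hpos
      · obtain ⟨r1, r2⟩ := roots_unit h2 ha₂ ha₄ hx₁ hX hle h0 h3 hS hPr
        left
        rw [clamp_of_le hx₁ hle (by linarith), r1, r2, zero_add, zero_sub, abs_neg,
          abs_of_pos h0, min_eq_left (by linarith)]
        exact ⟨rfl, rfl⟩
      · rw [clamp_of_mem hx₁ hpos.le hlt.le]
        rcases lt_trichotomy (O.ord x₁) m with hlt' | heq | hgt'
        · rw [abs_of_neg (by linarith), neg_sub]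
          exact roots_generic h2 ha₂ ha₄ hx₁ hX hpos hlt' h3 hS hPr
        · rw [heq, sub_self, abs_zero]
          have := roots_same h2 ha₂ ha₄ (hx₁.of_eq heq) hX hxx h0 h3 hS hPr
          have e1 : m + m = 2 * m := by ring
          have e2 : 2 * h - m - m = 2 * h - 2 * m := by ring
          rw [e1, e2]
          exact this
        · rw [abs_of_pos (by linarith)]
          have hS' : T₁ + T₂ = 2 * ((X + x₁) * (X * x₁ + a₄) + 2 * a₂ * (X * x₁)) / (X - x₁) ^ 2 := by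
            rw [hS]; congr 1 <;> ring
          have hP' : T₁ * T₂ = (X * x₁ - a₄) ^ 2 / (X - x₁) ^ 2 := by
            rw [hPr]; congr 1 <;> ring
          have := roots_generic h2 ha₂ ha₄ hX hx₁ h0 hgt' hlt hS' hP'
          have e1 : O.ord x₁ + m = m + O.ord x₁ := by ring
          have e2 : 2 * h - O.ord x₁ - m = 2 * h - m - O.ord x₁ := by ring
          rw [e1, e2]
          exact this

/-- The component function on the multiples of a point near the node. -/
lemma lev_nsmul {P : G} {X Y : L} {m : ℚ} (hP : M.co P = some (X, Y)) (hX : O.EQ X m)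
    (h0 : 0 < m) (h3 : m < h) (n : ℕ) :
    Lev h (M.mu O h (n • P)) (n * m) ∧ Lev h (M.mu O h ((n + 1) • P)) ((n + 1 : ℕ) * m) := by
  have hμP : M.mu O h P = m := by
    rw [M.mu_of_co hP]; exact clamp_of_mem hX h0.le h3.le
  induction n with
  | zero =>
    constructor
    · rw [zero_smul, M.mu_zero]; exact ⟨0, Or.inl (by simp)⟩
    · rw [zero_add, one_smul, hμP]; exact ⟨0, Or.inl (by simp)⟩
  | succ n ih =>
    obtain ⟨i0, i1⟩ := ih
    refine ⟨i1, ?_⟩
    have e1 : (n + 1) • P + P = (n + 1 + 1) • P := (succ_nsmul P (n + 1)).symm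
    have e2 : (n + 1) • P - P = n • P := by rw [add_smul, one_smul, add_sub_cancel_right]
    have c1 : ((n + 1 : ℕ) : ℚ) * m + m = ((n + 1 + 1 : ℕ) : ℚ) * m := by push_cast; ring
    have c2 : ((n + 1 : ℕ) : ℚ) * m - m = (n : ℚ) * m := by push_cast; ring
    have key := mu_add_sub h2 ha₂ ha₄ hP hX h0 h3 ((n + 1) • P)
    rw [e1, e2] at key
    rcases key with ⟨kA, kB⟩ | ⟨kA, kB⟩
    · rcases Lev.step i1 kA kB with ⟨s1, -⟩ | ⟨s1, s2⟩
      · rwa [c1] at s1
      · rw [c1] at s2; rw [c2] at s1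
        exact Lev.trans' i0 s2 s1
    · rcases Lev.step i1 kA kB with ⟨s1, s2⟩ | ⟨-, s2⟩
      · rw [c1] at s1; rw [c2] at s2
        exact Lev.trans' i0 s1 s2
      · rwa [c1] at s2

/-- A torsion point near the node lies on a component of order dividing `p`. -/
lemma ord_of_torsion {P : G} {X Y : L} {m : ℚ} (hP : M.co P = some (X, Y)) (hX : O.EQ X m)
    (h0 : 0 < m) (h3 : m < h) {p : ℕ} (hpP : p • P = 0) : ∃ k : ℤ, (p : ℚ) * m = 2 * h * k := by
  obtain ⟨⟨k, hk⟩, -⟩ := lev_nsmul h2 ha₂ ha₄ hP hX h0 h3 p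
  rw [hpP, M.mu_zero] at hk
  rcases hk with hk | hk
  · exact ⟨-k, by push_cast; linarith⟩
  · exact ⟨k, by linarith⟩

end

end XYModel

end Fermat.Agent.S05Lib
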