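import Mathlib

/-!
# Abstract rational-valued valuations

A light-weight interface for a rank one valuation with values in `ℚ`, together with three
predicates `GE`, `GT`, `EQ` that deal gracefully with the element `0`.
-/

set_option autoImplicit false

namespace Fermat.Agent.S05Lib

/-- An abstract additive valuation with values in `ℚ` (the value at `0` is junk). -/
structure OrdData (L : Type) [Field L] : Type where
  ord : L → ℚ
  ord_mul : ∀ {x y : L}, x ≠ 0 → y ≠ 0 → ord (x * y) = ord x + ord y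
  ord_add : ∀ {x y : L}, x ≠ 0 → y ≠ 0 → x + y ≠ 0 → min (ord x) (ord y) ≤ ord (x + y)

namespace OrdData

variable {L : Type} [Field L] (O : OrdData L)

lemma ord_one : O.ord 1 = 0 := by
  have h := O.ord_mul (x := (1 : L)) (y := 1) one_ne_zero one_ne_zero
  rw [one_mul] at h
  linarith

lemma ord_neg_one : O.ord (-1) = 0 := by
  have h := O.ord_mul (x := (-1 : L)) (y := -1) (neg_ne_zero.mpr one_ne_zero)
    (neg_ne_zero.mpr one_ne_zero)
  rw [neg_one_mul, neg_neg, O.ord_one] at h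
  linarith

lemma ord_neg (x : L) : O.ord (-x) = O.ord x := by
  by_cases hx : x = 0
  · rw [hx, neg_zero]
  · have h := O.ord_mul (x := (-1 : L)) (y := x) (neg_ne_zero.mpr one_ne_zero) hx
    rw [neg_one_mul, O.ord_neg_one] at h
    linarith

lemma ord_inv {x : L} (hx : x ≠ 0) : O.ord x⁻¹ = - O.ord x := by
  have h := O.ord_mul hx (inv_ne_zero hx)
  rw [mul_inv_cancel₀ hx, O.ord_one] at h
  linarith

/-- `ord x ≥ c`, where `ord 0 = ∞`. -/
def GE (x : L) (c : ℚ) : Prop := x = 0 ∨ c ≤ O.ord x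

/-- `ord x > c`, where `ord 0 = ∞`. -/
def GT (x : L) (c : ℚ) : Prop := x = 0 ∨ c < O.ord x

/-- `x ≠ 0` and `ord x = c`. -/
def EQ (x : L) (c : ℚ) : Prop := x ≠ 0 ∧ O.ord x = c

variable {O}
variable {x y z : L} {a b c d : ℚ}

lemma GE.zero : O.GE 0 c := Or.inl rfl
lemma GT.zero : O.GT 0 c := Or.inl rfl
lemma EQ.one : O.EQ 1 0 := ⟨one_ne_zero, O.ord_one⟩

lemma EQ.ne_zero (h : O.EQ x c) : x ≠ 0 := h.1
lemma EQ.ord_eq (h : O.EQ x c) : O.ord x = c := h.2

lemma EQ.of_eq (h : O.EQ x c) (hc : c = d) : O.EQ x d := hc ▸ h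

lemma EQ.unique (h : O.EQ x c) (h' : O.EQ x d) : c = d := h.2.symm.trans h'.2

lemma eq_self (hx : x ≠ 0) : O.EQ x (O.ord x) := ⟨hx, rfl⟩

lemma GT.ge (h : O.GT x c) : O.GE x c := h.imp id le_of_lt

lemma EQ.ge (h : O.EQ x c) (hc : d ≤ c) : O.GE x d := Or.inr (hc.trans h.2.ge)

lemma EQ.ge' (h : O.EQ x c) : O.GE x c := h.ge le_rfl

lemma EQ.gt (h : O.EQ x c) (hc : d < c) : O.GT x d := Or.inr (hc.trans_le h.2.ge)

lemma GE.mono (h : O.GE x c) (hc : d ≤ c) : O.GE x d := h.imp id hc.trans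

lemma GT.mono (h : O.GT x c) (hc : d ≤ c) : O.GT x d := h.imp id hc.trans_lt

lemma GE.gt (h : O.GE x c) (hc : d < c) : O.GT x d := h.imp id hc.trans_le

lemma EQ.not_gt (h : O.EQ x c) (h' : O.GT x d) (hc : c ≤ d) : False := by
  rcases h' with h' | h'
  · exact h.1 h'
  · rw [h.2] at h'; exact absurd h' (not_lt.mpr hc)

lemma EQ.le_of_ge (h : O.EQ x c) (h' : O.GE x d) : d ≤ c := by
  rcases h' with h' | h'
  · exact absurd h' h.1
  · rwa [h.2] at h'

lemma EQ.lt_of_gt (h : O.EQ x c) (h' : O.GT x d) : d < c := by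
  rcases h' with h' | h'
  · exact absurd h' h.1
  · rwa [h.2] at h'

lemma GE.neg (h : O.GE x c) : O.GE (-x) c := by
  rcases h with h | h
  · exact Or.inl (by rw [h, neg_zero])
  · exact Or.inr (by rwa [O.ord_neg])

lemma GT.neg (h : O.GT x c) : O.GT (-x) c := by
  rcases h with h | h
  · exact Or.inl (by rw [h, neg_zero])
  · exact Or.inr (by rwa [O.ord_neg])

lemma EQ.neg (h : O.EQ x c) : O.EQ (-x) c := ⟨neg_ne_zero.mpr h.1, by rw [O.ord_neg, h.2]⟩

lemma GE.add (hx : O.GE x c) (hy : O.GE y c) : O.GE (x + y) c := by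
  rcases hx with hx | hx
  · rw [hx, zero_add]; exact hy
  rcases hy with hy | hy
  · rw [hy, add_zero]; exact Or.inr hx
  by_cases hx0 : x = 0
  · rw [hx0, zero_add]; exact Or.inr hy
  by_cases hy0 : y = 0
  · rw [hy0, add_zero]; exact Or.inr hx
  by_cases hxy : x + y = 0
  · exact Or.inl hxy
  · exact Or.inr ((le_min hx hy).trans (O.ord_add hx0 hy0 hxy))

lemma GT.add (hx : O.GT x c) (hy : O.GT y c) : O.GT (x + y) c := by
  rcases hx with hx | hx
  · rw [hx, zero_add]; exact hy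
  rcases hy with hy | hy
  · rw [hy, add_zero]; exact Or.inr hx
  by_cases hx0 : x = 0
  · rw [hx0, zero_add]; exact Or.inr hy
  by_cases hy0 : y = 0
  · rw [hy0, add_zero]; exact Or.inr hx
  by_cases hxy : x + y = 0
  · exact Or.inl hxy
  · exact Or.inr ((lt_min hx hy).trans_le (O.ord_add hx0 hy0 hxy))

lemma GE.sub (hx : O.GE x c) (hy : O.GE y c) : O.GE (x - y) c := by
  rw [sub_eq_add_neg]; exact hx.add hy.neg

lemma GT.sub (hx : O.GT x c) (hy : O.GT y c) : O.GT (x - y) c := by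
  rw [sub_eq_add_neg]; exact hx.add hy.neg

/-- The dominant term determines the valuation. -/
lemma EQ.add_gt (hx : O.EQ x c) (hy : O.GT y c) : O.EQ (x + y) c := by
  have hne : x + y ≠ 0 := by
    intro h
    have : x = -y := eq_neg_of_add_eq_zero_left h
    exact hx.not_gt (this ▸ hy.neg) le_rfl
  refine ⟨hne, le_antisymm ?_ ?_⟩
  · by_contra hlt
    rw [not_le] at hlt
    have h1 : O.GT (x + y) c := Or.inr hlt
    have h2 : O.GT ((x + y) - y) c := h1.sub hy
    rw [add_sub_cancel_right] at h2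
    exact hx.not_gt h2 le_rfl
  · have := (hx.ge').add hy.ge
    exact (eq_self hne).le_of_ge this

lemma EQ.gt_add (hx : O.GT x c) (hy : O.EQ y c) : O.EQ (x + y) c := by
  rw [add_comm]; exact hy.add_gt hx

lemma EQ.sub_gt (hx : O.EQ x c) (hy : O.GT y c) : O.EQ (x - y) c := by
  rw [sub_eq_add_neg]; exact hx.add_gt hy.neg

lemma EQ.gt_sub (hx : O.GT x c) (hy : O.EQ y c) : O.EQ (x - y) c := by
  rw [sub_eq_add_neg]; exact EQ.gt_add hx hy.neg

lemma EQ.mul (hx : O.EQ x a) (hy : O.EQ y b) : O.EQ (x * y) (a + b) :=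
  ⟨mul_ne_zero hx.1 hy.1, by rw [O.ord_mul hx.1 hy.1, hx.2, hy.2]⟩

lemma GE.mul (hx : O.GE x a) (hy : O.GE y b) : O.GE (x * y) (a + b) := by
  rcases hx with hx | hx
  · exact Or.inl (by rw [hx, zero_mul])
  rcases hy with hy | hy
  · exact Or.inl (by rw [hy, mul_zero])
  by_cases hx0 : x = 0
  · exact Or.inl (by rw [hx0, zero_mul])
  by_cases hy0 : y = 0
  · exact Or.inl (by rw [hy0, mul_zero])
  · exact Or.inr (by rw [O.ord_mul hx0 hy0]; linarith)

lemma GT.mul_ge (hx : O.GT x a) (hy : O.GE y b) : O.GT (x * y) (a + b) := by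
  rcases hx with hx | hx
  · exact Or.inl (by rw [hx, zero_mul])
  rcases hy with hy | hy
  · exact Or.inl (by rw [hy, mul_zero])
  by_cases hx0 : x = 0
  · exact Or.inl (by rw [hx0, zero_mul])
  by_cases hy0 : y = 0
  · exact Or.inl (by rw [hy0, mul_zero])
  · exact Or.inr (by rw [O.ord_mul hx0 hy0]; linarith)

lemma GE.mul_gt (hx : O.GE x a) (hy : O.GT y b) : O.GT (x * y) (a + b) := by
  rw [mul_comm, add_comm]; exact hy.mul_ge hx

lemma EQ.inv (hx : O.EQ x a) : O.EQ x⁻¹ (-a) :=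
  ⟨inv_ne_zero hx.1, by rw [O.ord_inv hx.1, hx.2]⟩

lemma EQ.div (hx : O.EQ x a) (hy : O.EQ y b) : O.EQ (x / y) (a - b) := by
  rw [div_eq_mul_inv, sub_eq_add_neg]; exact hx.mul hy.inv

lemma GE.div (hx : O.GE x a) (hy : O.EQ y b) : O.GE (x / y) (a - b) := by
  rw [div_eq_mul_inv, sub_eq_add_neg]; exact hx.mul hy.inv.ge'

lemma GT.div (hx : O.GT x a) (hy : O.EQ y b) : O.GT (x / y) (a - b) := by
  rw [div_eq_mul_inv, sub_eq_add_neg]; exact hx.mul_ge hy.inv.ge'

lemma EQ.pow (hx : O.EQ x a) (n : ℕ) : O.EQ (x ^ n) (n * a) := by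
  induction n with
  | zero => simpa using EQ.one
  | succ n ih =>
    rw [pow_succ]
    exact (ih.mul hx).of_eq (by push_cast; ring)

lemma GE.pow (hx : O.GE x a) (n : ℕ) : O.GE (x ^ n) (n * a) := by
  induction n with
  | zero => simpa using (EQ.one (O := O)).ge'
  | succ n ih =>
    rw [pow_succ]
    exact (ih.mul hx).mono (by push_cast; linarith)

lemma EQ.sq (hx : O.EQ x a) : O.EQ (x ^ 2) (2 * a) := by
  simpa using hx.pow 2

lemma GE.sq (hx : O.GE x a) : O.GE (x ^ 2) (2 * a) := by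
  simpa using hx.pow 2

lemma GT.sq (hx : O.GT x a) : O.GT (x ^ 2) (2 * a) := by
  rw [pow_two, two_mul]; exact hx.mul_ge hx.ge

lemma EQ.zpow (hx : O.EQ x a) (n : ℤ) : O.EQ (x ^ n) (n * a) := by
  cases n with
  | ofNat n => simpa using hx.pow n
  | negSucc n =>
    rw [zpow_negSucc]
    exact ((hx.pow (n + 1)).inv).of_eq (by push_cast; ring)

/-- Every element is either `0`, or has a definite valuation. -/
lemma eq_zero_or_EQ (O : OrdData L) (x : L) : x = 0 ∨ O.EQ x (O.ord x) := by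
  by_cases hx : x = 0
  · exact Or.inl hx
  · exact Or.inr (eq_self hx)

lemma GE_or_lt (O : OrdData L) (x : L) (c : ℚ) : O.GE x c ∨ (x ≠ 0 ∧ O.ord x < c) := by
  by_cases hx : x = 0
  · exact Or.inl (Or.inl hx)
  · rcases le_or_gt c (O.ord x) with h | h
    · exact Or.inl (Or.inr h)
    · exact Or.inr ⟨hx, h⟩

lemma GT_or_le (O : OrdData L) (x : L) (c : ℚ) : O.GT x c ∨ (x ≠ 0 ∧ O.ord x ≤ c) := by
  by_cases hx : x = 0
  · exact Or.inl (Or.inl hx)
  · rcases lt_or_ge c (O.ord x) with h | h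
    · exact Or.inl (Or.inr h)
    · exact Or.inr ⟨hx, h⟩

lemma GE.eq_or_gt (h : O.GE x c) : O.EQ x c ∨ O.GT x c := by
  rcases h with h | h
  · exact Or.inr (Or.inl h)
  · by_cases hx : x = 0
    · exact Or.inr (Or.inl hx)
    · rcases h.eq_or_lt with h | h
      · exact Or.inl ⟨hx, h.symm⟩
      · exact Or.inr (Or.inr h)

lemma GE.of_sq (h : O.GE (x ^ 2) (2 * a)) : O.GE x a := by
  rcases eq_zero_or_EQ O x with hx | hx
  · exact Or.inl hx
  · have := hx.sq.le_of_ge h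
    exact hx.ge (by linarith)

lemma GT.of_sq (h : O.GT (x ^ 2) (2 * a)) : O.GT x a := by
  rcases eq_zero_or_EQ O x with hx | hx
  · exact Or.inl hx
  · have := hx.sq.lt_of_gt h
    exact hx.gt (by linarith)

lemma EQ.of_sq (h : O.EQ (x ^ 2) (2 * a)) : O.EQ x a := by
  have hx : x ≠ 0 := fun h0 => h.1 (by rw [h0]; simp)
  have := (eq_self (O := O) hx).sq.unique h
  exact ⟨hx, by linarith⟩

/-- difference of two elements with different valuations -/
lemma EQ.sub_of_lt (hx : O.EQ x a) (hy : O.EQ y b) (h : a < b) : O.EQ (x - y) a :=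
  hx.sub_gt (hy.gt h)

lemma EQ.add_of_lt (hx : O.EQ x a) (hy : O.EQ y b) (h : a < b) : O.EQ (x + y) a :=
  hx.add_gt (hy.gt h)

/-! ### Roots of quadratics -/

section Quadratic

variable {T₁ T₂ S P : L} {s π : ℚ}

/-- If the sum dominates, the two roots have different valuations. -/
lemma quad_distinct (hS : T₁ + T₂ = S) (hP : T₁ * T₂ = P) (hs : O.EQ S s) (hp : O.GE P π)
    (h : 2 * s < π) :
    (O.EQ T₁ s ∧ O.GE T₂ (π - s)) ∨ (O.EQ T₂ s ∧ O.GE T₁ (π - s)) := by
  -- one of the two roots has valuation at most `s`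
  have key : ∀ {U V : L}, U + V = S → U * V = P → ¬ O.GT U s → O.EQ U s ∧ O.GE V (π - s) := by
    intro U V hUV hUVP hU
    have hU0 : U ≠ 0 := fun h0 => hU (Or.inl h0)
    have hUle : O.ord U ≤ s := by
      by_contra hlt; exact hU (Or.inr (not_le.mp hlt))
    have hUE := eq_self (O := O) hU0
    have hV : O.GE V (π - O.ord U) := by
      have : V = P / U := by rw [← hUVP]; field_simp
      rw [this]; exact hp.div hUE
    have hVgt : O.GT V (O.ord U) := hV.gt (by linarith)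
    have hSE : O.EQ S (O.ord U) := hUV ▸ hUE.add_gt hVgt
    have hsU : O.ord U = s := hSE.unique hs
    exact ⟨⟨hU0, hsU⟩, hsU ▸ hV⟩
  by_cases h1 : O.GT T₁ s
  · by_cases h2 : O.GT T₂ s
    · exact absurd (hS ▸ h1.add h2) (fun hgt => hs.not_gt hgt le_rfl)
    · exact Or.inr (key (by rw [add_comm]; exact hS) (by rw [mul_comm]; exact hP) h2)
  · exact Or.inl (key hS hP h1)

/-- The exact version of `quad_distinct`. -/
lemma quad_distinct_eq (hS : T₁ + T₂ = S) (hP : T₁ * T₂ = P) (hs : O.EQ S s) (hp : O.EQ P π)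
    (h : 2 * s < π) :
    (O.EQ T₁ s ∧ O.EQ T₂ (π - s)) ∨ (O.EQ T₂ s ∧ O.EQ T₁ (π - s)) := by
  rcases quad_distinct hS hP hs hp.ge' h with ⟨h1, -⟩ | ⟨h1, -⟩
  · refine Or.inl ⟨h1, ?_⟩
    have : T₂ = P / T₁ := by rw [← hP]; have := h1.1; field_simp
    rw [this]; exact hp.div h1
  · refine Or.inr ⟨h1, ?_⟩
    have : T₁ = P / T₂ := by rw [← hP]; have := h1.1; field_simp
    rw [this]; exact hp.div h1

/-- If the product dominates, the two roots have the same valuation. -/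
lemma quad_equal (hS : T₁ + T₂ = S) (hP : T₁ * T₂ = P) (hs : O.GE S s) (hp : O.EQ P π)
    (h : π ≤ 2 * s) : O.EQ T₁ (π / 2) ∧ O.EQ T₂ (π / 2) := by
  have h1 : T₁ ≠ 0 := fun h0 => hp.1 (by rw [← hP, h0, zero_mul])
  have h2 : T₂ ≠ 0 := fun h0 => hp.1 (by rw [← hP, h0, mul_zero])
  have e1 := eq_self (O := O) h1
  have e2 := eq_self (O := O) h2
  have hsum : O.ord T₁ + O.ord T₂ = π := (e1.mul e2).unique (hP ▸ hp)
  rcases lt_trichotomy (O.ord T₁) (O.ord T₂) with hlt | heq | hlt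
  · have : O.EQ S (O.ord T₁) := hS ▸ e1.add_of_lt e2 hlt
    have := this.le_of_ge hs
    exfalso; linarith
  · exact ⟨⟨h1, by linarith⟩, ⟨h2, by linarith⟩⟩
  · have : O.EQ S (O.ord T₂) := hS ▸ (add_comm T₂ T₁ ▸ e2.add_of_lt e1 hlt)
    have := this.le_of_ge hs
    exfalso; linarith

/-- Lower bounds for both roots. -/
lemma quad_ge (hS : T₁ + T₂ = S) (hP : T₁ * T₂ = P) (hs : O.GE S s) (hp : O.GE P (2 * s)) :
    O.GE T₁ s ∧ O.GE T₂ s := by
  have key : ∀ {U V : L}, U + V = S → U * V = P → O.GE U s := by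
    intro U V hUV hUVP
    rcases GE_or_lt O U s with h | ⟨hU0, hlt⟩
    · exact h
    · exfalso
      have hUE := eq_self (O := O) hU0
      -- `U ^ 2 = S * U - P`
      have hsq : U ^ 2 = S * U - P := by rw [← hUV, ← hUVP]; ring
      have h1 : O.GT (S * U) (2 * O.ord U) := by
        have := (hs.gt hlt).mul_ge hUE.ge'
        exact this.mono (by linarith)
      have h2 : O.GT P (2 * O.ord U) := hp.gt (by linarith)
      exact hUE.sq.not_gt (hsq ▸ h1.sub h2) le_rfl
  exact ⟨key hS hP, key (by rw [add_comm]; exact hS) (by rw [mul_comm]; exact hP)⟩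

end Quadratic

end OrdData

end Fermat.Agent.S05Lib
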