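import Fermat.Agent.S05.Ord

/-!
# Construction of a rational valued valuation
-/

set_option autoImplicit false

namespace Fermat.Agent.S05Lib

section Abstract

variable {L : Type} [Field L] {Γ₀ : Type} [LinearOrderedCommGroupWithZero Γ₀]
  (v : Valuation L Γ₀) (g : Γ₀)

/-- `r` is the valuation of `x`, normalised by `ord = 1` at elements of valuation `g`. -/
def OrdRel (x : L) (r : ℚ) : Prop :=
  ∃ e : ℕ, 0 < e ∧ ∃ k : ℤ, v x ^ e = g ^ k ∧ r = k / e

variable {v g}

lemma OrdRel.le_iff (hg0 : 0 < g) (hg1 : g < 1) {x y : L} {r s : ℚ}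
    (hx : OrdRel v g x r) (hy : OrdRel v g y s) : v x ≤ v y ↔ s ≤ r := by
  obtain ⟨e, he, k, hk, rfl⟩ := hx
  obtain ⟨f, hf, l, hl, rfl⟩ := hy
  have hef : e * f ≠ 0 := (Nat.mul_pos he hf).ne'
  rw [← pow_le_pow_iff_left₀ zero_le zero_le hef]
  have h1 : v x ^ (e * f) = g ^ (k * f) := by
    rw [pow_mul, hk, zpow_mul, zpow_natCast]
  have h2 : v y ^ (e * f) = g ^ (l * e) := by
    rw [mul_comm e f, pow_mul, hl, zpow_mul, zpow_natCast]
  rw [h1, h2, zpow_le_zpow_iff_right_of_lt_one₀ hg0 hg1]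
  have he' : (0 : ℚ) < e := by exact_mod_cast he
  have hf' : (0 : ℚ) < f := by exact_mod_cast hf
  rw [div_le_div_iff₀ hf' he']
  exact_mod_cast Iff.rfl

lemma OrdRel.unique (hg0 : 0 < g) (hg1 : g < 1) {x : L} {r s : ℚ}
    (hx : OrdRel v g x r) (hy : OrdRel v g x s) : r = s :=
  le_antisymm ((OrdRel.le_iff hg0 hg1 hy hx).mp le_rfl) ((OrdRel.le_iff hg0 hg1 hx hy).mp le_rfl)

lemma OrdRel.mul (hg0 : 0 < g) {x y : L} {r s : ℚ}
    (hx : OrdRel v g x r) (hy : OrdRel v g y s) : OrdRel v g (x * y) (r + s) := by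
  obtain ⟨e, he, k, hk, rfl⟩ := hx
  obtain ⟨f, hf, l, hl, rfl⟩ := hy
  refine ⟨e * f, Nat.mul_pos he hf, k * f + l * e, ?_, ?_⟩
  · rw [map_mul, mul_pow, pow_mul, hk, mul_comm e f, pow_mul, hl, zpow_add₀ hg0.ne', zpow_mul,
      zpow_mul, zpow_natCast, zpow_natCast]
  · have he' : (e : ℚ) ≠ 0 := by exact_mod_cast he.ne'
    have hf' : (f : ℚ) ≠ 0 := by exact_mod_cast hf.ne'
    push_cast
    field_simp

open Classical in
/-- The rational valued valuation attached to a valuation all of whose values are commensurable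
with `g`. -/
noncomputable def ordDataOf (hg0 : 0 < g) (hg1 : g < 1)
    (H : ∀ x : L, x ≠ 0 → ∃ r : ℚ, OrdRel v g x r) : OrdData L where
  ord x := if hx : x = 0 then 0 else (H x hx).choose
  ord_mul := by
    intro x y hx hy
    rw [dif_neg hx, dif_neg hy, dif_neg (mul_ne_zero hx hy)]
    exact OrdRel.unique hg0 hg1 (H _ (mul_ne_zero hx hy)).choose_spec
      (OrdRel.mul hg0 (H x hx).choose_spec (H y hy).choose_spec)
  ord_add := by
    intro x y hx hy hxy
    rw [dif_neg hx, dif_neg hy, dif_neg hxy]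
    rcases le_total (v x) (v y) with h | h
    · refine (min_le_right _ _).trans ?_
      apply (OrdRel.le_iff hg0 hg1 (H _ hxy).choose_spec (H y hy).choose_spec).mp
      exact (v.map_add x y).trans (max_le h le_rfl)
    · refine (min_le_left _ _).trans ?_
      apply (OrdRel.le_iff hg0 hg1 (H _ hxy).choose_spec (H x hx).choose_spec).mp
      exact (v.map_add x y).trans (max_le le_rfl h)

variable (hg0 : 0 < g) (hg1 : g < 1) (H : ∀ x : L, x ≠ 0 → ∃ r : ℚ, OrdRel v g x r)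

lemma ordDataOf_rel {x : L} (hx : x ≠ 0) : OrdRel v g x ((ordDataOf hg0 hg1 H).ord x) := by
  unfold ordDataOf
  simp only [dif_neg hx]
  exact (H x hx).choose_spec

lemma ordDataOf_EQ {x : L} {r : ℚ} (hx : x ≠ 0) (hr : OrdRel v g x r) :
    (ordDataOf hg0 hg1 H).EQ x r :=
  ⟨hx, OrdRel.unique hg0 hg1 (ordDataOf_rel hg0 hg1 H hx) hr⟩

lemma ordRel_one : OrdRel v g (1 : L) 0 := ⟨1, one_pos, 0, by simp, by simp⟩

lemma ordDataOf_GE_zero {x : L} (hx : v x ≤ 1) : (ordDataOf hg0 hg1 H).GE x 0 := by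
  by_cases hx0 : x = 0
  · exact Or.inl hx0
  · right
    apply (OrdRel.le_iff hg0 hg1 (ordDataOf_rel hg0 hg1 H hx0) ordRel_one).mp
    rwa [map_one]

lemma ordDataOf_le_one {x : L} (hx : (ordDataOf hg0 hg1 H).GE x 0) : v x ≤ 1 := by
  rcases hx with hx | hx
  · rw [hx, map_zero]; exact zero_le
  · by_cases hx0 : x = 0
    · rw [hx0, map_zero]; exact zero_le
    · have := (OrdRel.le_iff hg0 hg1 (ordDataOf_rel hg0 hg1 H hx0) ordRel_one).mpr hx
      rwa [map_one] at this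

lemma ordDataOf_GT_zero {x : L} (hx : v x < 1) : (ordDataOf hg0 hg1 H).GT x 0 := by
  by_cases hx0 : x = 0
  · exact Or.inl hx0
  · right
    by_contra hle
    rw [not_lt] at hle
    have := (OrdRel.le_iff hg0 hg1 ordRel_one (ordDataOf_rel hg0 hg1 H hx0)).mpr hle
    rw [map_one] at this
    exact absurd hx (not_lt.mpr this)

end Abstract

end Fermat.Agent.S05Lib
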