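import Fermat.Agent.S05.Inertia

/-!
# Multiplicative reduction: the component function

For the curve `Y² = X³ + a₂ X² + a₄ X` with `a₂` a unit and `ord a₄ = h > 0` we study the function
`μ(P) = clamp (ord X(P))` with values in `[0, h]`, and show that it behaves like the distance to
the nearest multiple of `2h` of a homomorphism.
-/

set_option autoImplicit false

namespace Fermat.Agent.S05Lib

namespace OrdData

variable {L : Type} [Field L] (O : OrdData L)

open Classical in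
/-- The valuation, clamped to the interval `[0, h]`. -/
noncomputable def clamp (h : ℚ) (X : L) : ℚ := if X = 0 then h else max 0 (min (O.ord X) h)

variable {O} {h : ℚ} {X : L} {c : ℚ}

lemma clamp_of_le (hX : O.EQ X c) (hc : c ≤ 0) (hh : 0 ≤ h) : O.clamp h X = 0 := by
  unfold clamp
  rw [if_neg hX.1, hX.2, min_eq_left (hc.trans hh), max_eq_left hc]

lemma clamp_of_mem (hX : O.EQ X c) (hc : 0 ≤ c) (hc' : c ≤ h) : O.clamp h X = c := by
  unfold clamp
  rw [if_neg hX.1, hX.2, min_eq_left hc', max_eq_right hc]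

lemma clamp_of_ge (hX : O.GE X h) (hh : 0 ≤ h) : O.clamp h X = h := by
  unfold clamp
  split_ifs with h0
  · rfl
  · rcases hX with hX | hX
    · exact absurd hX h0
    · rw [min_eq_right hX, max_eq_right hh]

section Roots

variable {a₂ a₄ : L} (h2 : O.EQ (2 : L) 0) (ha₂ : O.EQ a₂ 0) (ha₄ : O.EQ a₄ h)
include h2 ha₂ ha₄

lemma snum_eq {x₁ x₂ : L} {o₁ o₂ : ℚ} (hx₁ : O.EQ x₁ o₁) (hx₂ : O.EQ x₂ o₂)
    (h1 : 0 < o₁) (h1' : o₁ < h) (h2' : 0 < o₂) (h2'' : o₂ < h) :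
    O.EQ (2 * ((x₁ + x₂) * (x₁ * x₂ + a₄) + 2 * a₂ * (x₁ * x₂))) (o₁ + o₂) := by
  have hs : O.EQ (x₁ * x₂) (o₁ + o₂) := hx₁.mul hx₂
  have t2 : O.EQ (2 * a₂ * (x₁ * x₂)) (o₁ + o₂) := ((h2.mul ha₂).mul hs).of_eq (by ring)
  have t1 : O.GT ((x₁ + x₂) * (x₁ * x₂ + a₄)) (o₁ + o₂) := by
    rcases le_total o₁ o₂ with hle | hle
    · have hsum : O.GE (x₁ + x₂) o₁ := hx₁.ge'.add (hx₂.ge hle)
      rcases le_total (o₁ + o₂) h with hh | hh
      · exact (hsum.mul (hs.ge'.add (ha₄.ge hh))).gt (by linarith)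
      · exact (hsum.mul ((hs.ge hh).add ha₄.ge')).gt (by linarith)
    · have hsum : O.GE (x₁ + x₂) o₂ := (hx₁.ge hle).add hx₂.ge'
      rcases le_total (o₁ + o₂) h with hh | hh
      · exact (hsum.mul (hs.ge'.add (ha₄.ge hh))).gt (by linarith)
      · exact (hsum.mul ((hs.ge hh).add ha₄.ge')).gt (by linarith)
  exact (h2.mul (EQ.gt_add t1 t2)).of_eq (by ring)

/-- Two points near the node, on different levels. -/
lemma roots_generic {u w T₁ T₂ : L} {lo hi : ℚ} (hu : O.EQ u lo) (hw : O.EQ w hi)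
    (h0 : 0 < lo) (h1 : lo < hi) (h3 : hi < h)
    (hS : T₁ + T₂ = 2 * ((u + w) * (u * w + a₄) + 2 * a₂ * (u * w)) / (u - w) ^ 2)
    (hP : T₁ * T₂ = (u * w - a₄) ^ 2 / (u - w) ^ 2) :
    (O.clamp h T₁ = min (lo + hi) (2 * h - lo - hi) ∧ O.clamp h T₂ = hi - lo) ∨
    (O.clamp h T₂ = min (lo + hi) (2 * h - lo - hi) ∧ O.clamp h T₁ = hi - lo) := by
  have hD : O.EQ (u - w) lo := hu.sub_of_lt hw h1
  have hs : O.EQ (u * w) (lo + hi) := hu.mul hw
  have hSn := snum_eq h2 ha₂ ha₄ hu hw h0 (h1.trans h3) (h0.trans h1) h3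
  have hSE : O.EQ (2 * ((u + w) * (u * w + a₄) + 2 * a₂ * (u * w)) / (u - w) ^ 2) (hi - lo) :=
    (hSn.div hD.sq).of_eq (by ring)
  rcases lt_trichotomy (lo + hi) h with hlt | heq | hgt
  · have hE : O.EQ (u * w - a₄) (lo + hi) := hs.sub_gt (ha₄.gt hlt)
    have hPE : O.EQ ((u * w - a₄) ^ 2 / (u - w) ^ 2) (2 * hi) := (hE.sq.div hD.sq).of_eq (by ring)
    have hmin : min (lo + hi) (2 * h - lo - hi) = lo + hi := min_eq_left (by linarith)
    rw [hmin]
    rcases quad_distinct_eq hS hP hSE hPE (by linarith) with ⟨r1, r2⟩ | ⟨r1, r2⟩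
    · exact Or.inr ⟨by rw [clamp_of_mem r2 (by linarith) (by linarith)]; ring,
        clamp_of_mem r1 (by linarith) (by linarith)⟩
    · exact Or.inl ⟨by rw [clamp_of_mem r2 (by linarith) (by linarith)]; ring,
        clamp_of_mem r1 (by linarith) (by linarith)⟩
  · have hE : O.GE (u * w - a₄) h := (hs.ge heq.ge).sub ha₄.ge'
    have hPE : O.GE ((u * w - a₄) ^ 2 / (u - w) ^ 2) (2 * h - 2 * lo) := hE.sq.div hD.sq
    have hmin : min (lo + hi) (2 * h - lo - hi) = h := by rw [min_eq_left (by linarith), heq]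
    rw [hmin]
    rcases quad_distinct hS hP hSE hPE (by linarith) with ⟨r1, r2⟩ | ⟨r1, r2⟩
    · exact Or.inr ⟨clamp_of_ge (r2.mono (by linarith)) (by linarith),
        clamp_of_mem r1 (by linarith) (by linarith)⟩
    · exact Or.inl ⟨clamp_of_ge (r2.mono (by linarith)) (by linarith),
        clamp_of_mem r1 (by linarith) (by linarith)⟩
  · have hE : O.EQ (u * w - a₄) h := EQ.gt_sub (hs.gt hgt) ha₄
    have hPE : O.EQ ((u * w - a₄) ^ 2 / (u - w) ^ 2) (2 * h - 2 * lo) := hE.sq.div hD.sq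
    have hmin : min (lo + hi) (2 * h - lo - hi) = 2 * h - lo - hi := min_eq_right (by linarith)
    rw [hmin]
    rcases quad_distinct_eq hS hP hSE hPE (by linarith) with ⟨r1, r2⟩ | ⟨r1, r2⟩
    · exact Or.inr ⟨by rw [clamp_of_mem r2 (by linarith) (by linarith)]; ring,
        clamp_of_mem r1 (by linarith) (by linarith)⟩
    · exact Or.inl ⟨by rw [clamp_of_mem r2 (by linarith) (by linarith)]; ring,
        clamp_of_mem r1 (by linarith) (by linarith)⟩

/-- Two different points near the node, on the same level. -/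
lemma roots_same {u w T₁ T₂ : L} {m : ℚ} (hu : O.EQ u m) (hw : O.EQ w m) (huw : u ≠ w)
    (h0 : 0 < m) (h3 : m < h)
    (hS : T₁ + T₂ = 2 * ((u + w) * (u * w + a₄) + 2 * a₂ * (u * w)) / (u - w) ^ 2)
    (hP : T₁ * T₂ = (u * w - a₄) ^ 2 / (u - w) ^ 2) :
    (O.clamp h T₁ = min (2 * m) (2 * h - 2 * m) ∧ O.clamp h T₂ = 0) ∨
    (O.clamp h T₂ = min (2 * m) (2 * h - 2 * m) ∧ O.clamp h T₁ = 0) := by
  have hD0 : u - w ≠ 0 := sub_ne_zero.mpr huw
  have hD := eq_self (O := O) hD0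
  have hδ : m ≤ O.ord (u - w) := hD.le_of_ge (hu.ge'.sub hw.ge')
  set δ := O.ord (u - w) with hδdef
  have hs : O.EQ (u * w) (2 * m) := (hu.mul hw).of_eq (by ring)
  have hSn := snum_eq h2 ha₂ ha₄ hu hw h0 h3 h0 h3
  have hSE : O.EQ (2 * ((u + w) * (u * w + a₄) + 2 * a₂ * (u * w)) / (u - w) ^ 2)
      (2 * m - 2 * δ) := (hSn.div hD.sq).of_eq (by ring)
  rcases lt_trichotomy (2 * m) h with hlt | heq | hgt
  · have hE : O.EQ (u * w - a₄) (2 * m) := hs.sub_gt (ha₄.gt hlt)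
    have hPE : O.EQ ((u * w - a₄) ^ 2 / (u - w) ^ 2) (4 * m - 2 * δ) :=
      (hE.sq.div hD.sq).of_eq (by ring)
    have hmin : min (2 * m) (2 * h - 2 * m) = 2 * m := min_eq_left (by linarith)
    rw [hmin]
    rcases quad_distinct_eq hS hP hSE hPE (by linarith) with ⟨r1, r2⟩ | ⟨r1, r2⟩
    · exact Or.inr ⟨by rw [clamp_of_mem r2 (by linarith) (by linarith)]; ring,
        clamp_of_le r1 (by linarith) (by linarith)⟩
    · exact Or.inl ⟨by rw [clamp_of_mem r2 (by linarith) (by linarith)]; ring,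
        clamp_of_le r1 (by linarith) (by linarith)⟩
  · have hE : O.GE (u * w - a₄) h := (hs.ge heq.ge).sub ha₄.ge'
    have hPE : O.GE ((u * w - a₄) ^ 2 / (u - w) ^ 2) (2 * h - 2 * δ) := hE.sq.div hD.sq
    have hmin : min (2 * m) (2 * h - 2 * m) = h := by rw [min_eq_left (by linarith), heq]
    rw [hmin]
    rcases quad_distinct hS hP hSE hPE (by linarith) with ⟨r1, r2⟩ | ⟨r1, r2⟩
    · exact Or.inr ⟨clamp_of_ge (r2.mono (by linarith)) (by linarith),
        clamp_of_le r1 (by linarith) (by linarith)⟩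
    · exact Or.inl ⟨clamp_of_ge (r2.mono (by linarith)) (by linarith),
        clamp_of_le r1 (by linarith) (by linarith)⟩
  · have hE : O.EQ (u * w - a₄) h := EQ.gt_sub (hs.gt hgt) ha₄
    have hPE : O.EQ ((u * w - a₄) ^ 2 / (u - w) ^ 2) (2 * h - 2 * δ) := hE.sq.div hD.sq
    have hmin : min (2 * m) (2 * h - 2 * m) = 2 * h - 2 * m := min_eq_right (by linarith)
    rw [hmin]
    rcases quad_distinct_eq hS hP hSE hPE (by linarith) with ⟨r1, r2⟩ | ⟨r1, r2⟩
    · exact Or.inr ⟨by rw [clamp_of_mem r2 (by linarith) (by linarith)]; ring,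
        clamp_of_le r1 (by linarith) (by linarith)⟩
    · exact Or.inl ⟨by rw [clamp_of_mem r2 (by linarith) (by linarith)]; ring,
        clamp_of_le r1 (by linarith) (by linarith)⟩

/-- A point with nonsingular reduction and a point near the node. -/
lemma roots_unit {u w T₁ T₂ : L} {o m : ℚ} (hu : O.EQ u o) (hw : O.EQ w m) (ho : o ≤ 0)
    (h0 : 0 < m) (h3 : m < h)
    (hS : T₁ + T₂ = 2 * ((u + w) * (u * w + a₄) + 2 * a₂ * (u * w)) / (u - w) ^ 2)
    (hP : T₁ * T₂ = (u * w - a₄) ^ 2 / (u - w) ^ 2) :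
    O.clamp h T₁ = m ∧ O.clamp h T₂ = m := by
  have hD : O.EQ (u - w) o := hu.sub_of_lt hw (by linarith)
  have hsum : O.EQ (u + w) o := hu.add_of_lt hw (by linarith)
  have hs : O.EQ (u * w) (o + m) := hu.mul hw
  have hE : O.EQ (u * w - a₄) (o + m) := hs.sub_gt (ha₄.gt (by linarith))
  have hE' : O.EQ (u * w + a₄) (o + m) := hs.add_gt (ha₄.gt (by linarith))
  have hSn : O.GE (2 * ((u + w) * (u * w + a₄) + 2 * a₂ * (u * w))) (2 * o + m) := by
    have t1 : O.GE ((u + w) * (u * w + a₄)) (2 * o + m) := (hsum.mul hE').ge (by linarith)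
    have t2 : O.GE (2 * a₂ * (u * w)) (2 * o + m) := ((h2.mul ha₂).mul hs).ge (by linarith)
    exact (h2.ge'.mul (t1.add t2)).mono (by linarith)
  have hSE : O.GE (2 * ((u + w) * (u * w + a₄) + 2 * a₂ * (u * w)) / (u - w) ^ 2) m :=
    (hSn.div hD.sq).mono (by linarith)
  have hPE : O.EQ ((u * w - a₄) ^ 2 / (u - w) ^ 2) (2 * m) := (hE.sq.div hD.sq).of_eq (by ring)
  obtain ⟨r1, r2⟩ := quad_equal hS hP hSE hPE le_rfl
  exact ⟨by rw [clamp_of_mem r1 (by linarith) (by linarith)]; ring,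
    by rw [clamp_of_mem r2 (by linarith) (by linarith)]; ring⟩

/-- A point on the middle component and a point near the node. -/
lemma roots_mid {u w T₁ T₂ : L} {m : ℚ} (hu : O.GE u h) (hw : O.EQ w m)
    (h0 : 0 < m) (h3 : m < h)
    (hS : T₁ + T₂ = 2 * ((u + w) * (u * w + a₄) + 2 * a₂ * (u * w)) / (u - w) ^ 2)
    (hP : T₁ * T₂ = (u * w - a₄) ^ 2 / (u - w) ^ 2) :
    O.clamp h T₁ = h - m ∧ O.clamp h T₂ = h - m := by
  have hD : O.EQ (u - w) m := EQ.gt_sub (hu.gt h3) hw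
  have hsum : O.EQ (u + w) m := EQ.gt_add (hu.gt h3) hw
  have hs : O.GE (u * w) (h + m) := hu.mul hw.ge'
  have hE : O.EQ (u * w - a₄) h := EQ.gt_sub (hs.gt (by linarith)) ha₄
  have hE' : O.EQ (u * w + a₄) h := EQ.gt_add (hs.gt (by linarith)) ha₄
  have hSn : O.GE (2 * ((u + w) * (u * w + a₄) + 2 * a₂ * (u * w))) (h + m) := by
    have t1 : O.GE ((u + w) * (u * w + a₄)) (h + m) := (hsum.mul hE').ge (by linarith)
    have t2 : O.GE (2 * a₂ * (u * w)) (h + m) := ((h2.mul ha₂).ge'.mul hs).mono (by linarith)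
    exact (h2.ge'.mul (t1.add t2)).mono (by linarith)
  have hSE : O.GE (2 * ((u + w) * (u * w + a₄) + 2 * a₂ * (u * w)) / (u - w) ^ 2) (h - m) :=
    (hSn.div hD.sq).mono (by linarith)
  have hPE : O.EQ ((u * w - a₄) ^ 2 / (u - w) ^ 2) (2 * (h - m)) :=
    (hE.sq.div hD.sq).of_eq (by ring)
  obtain ⟨r1, r2⟩ := quad_equal hS hP hSE hPE le_rfl
  exact ⟨by rw [clamp_of_mem r1 (by linarith) (by linarith)]; ring,
    by rw [clamp_of_mem r2 (by linarith) (by linarith)]; ring⟩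

/-- Doubling a point near the node. -/
lemma dbl_node {X Y : L} {m : ℚ} (hX : O.EQ X m) (h0 : 0 < m) (h3 : m < h)
    (e : Y ^ 2 = X ^ 3 + a₂ * X ^ 2 + a₄ * X) :
    Y ≠ 0 ∧ O.clamp h ((X ^ 2 - a₄) ^ 2 / (4 * Y ^ 2)) = min (2 * m) (2 * h - 2 * m) := by
  have hq : O.EQ (a₂ * X + X ^ 2 + a₄) m :=
    (((ha₂.mul hX).of_eq (by ring)).add_gt (hX.sq.gt (by linarith))).add_gt (ha₄.gt h3)
  have hY2 : O.EQ (Y ^ 2) (2 * m) := by
    have : Y ^ 2 = X * (a₂ * X + X ^ 2 + a₄) := by rw [e]; ring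
    rw [this]; exact (hX.mul hq).of_eq (by ring)
  have hY0 : Y ≠ 0 := fun h0 => hY2.1 (by rw [h0]; simp)
  refine ⟨hY0, ?_⟩
  have hden : O.EQ (4 * Y ^ 2) (2 * m) := ((four_eq h2).mul hY2).of_eq (by ring)
  rcases lt_trichotomy (2 * m) h with hlt | heq | hgt
  · have hE : O.EQ (X ^ 2 - a₄) (2 * m) := hX.sq.sub_gt (ha₄.gt hlt)
    rw [min_eq_left (by linarith), clamp_of_mem (hE.sq.div hden) (by linarith) (by linarith)]
    ring
  · have hE : O.GE (X ^ 2 - a₄) h := (hX.sq.ge heq.ge).sub ha₄.ge'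
    rw [min_eq_left (by linarith), clamp_of_ge ((hE.sq.div hden).mono (by linarith))
      (by linarith), heq]
  · have hE : O.EQ (X ^ 2 - a₄) h := EQ.gt_sub (hX.sq.gt hgt) ha₄
    rw [min_eq_right (by linarith), clamp_of_mem (hE.sq.div hden) (by linarith) (by linarith)]

end Roots

end OrdData

end Fermat.Agent.S05Lib
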